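import Mathlib
import Fermat.Agent.S49.Core

/-!
# S41, package ASM, row S41-ASM-U (helper11): Deligne–Serre lifting (prefix `s41asl_`)

`s41as_lift`: `K ⊆ Hom(H, ℤ)` a saturated subgroup stable under commuting operators `t i`,
`y ∈ K`, `y ∉ p Hom(H, ℤ)` an eigenvector mod `p` of the `t i`, `i ∈ J`.  Then there is a nonzero
complex character in the `ℂ`-span of `K` which is an eigenvector of all `t i`, with algebraic
integer eigenvalues congruent to the `n i` (`i ∈ J`) modulo a maximal ideal over `p`.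
-/

set_option autoImplicit false

namespace Fermat.Agent.S41

open scoped IsMulCommutative

/-! ### the abstract step: an eigen-character through a proper ideal -/

theorem s41asl_exists_character {T V : Type*} [CommRing T] [AddCommGroup V] [Module ℂ V]
    [FiniteDimensional ℂ V] (ρ : T →+* Module.End ℂ V) (hρ : Function.Injective ρ)
    (m₀ : Ideal T) (hm₀ : m₀ ≠ ⊤) :
    ∃ (v : V) (χ : T →+* ℂ), v ≠ 0 ∧ (∀ t, ρ t v = χ t • v) ∧
      ((∀ t, IsIntegral ℤ (χ t)) →
        ∃ (χ' : T →+* integralClosure ℤ ℂ) (𝔪' : Ideal (integralClosure ℤ ℂ)),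
          (∀ t, ((χ' t : integralClosure ℤ ℂ) : ℂ) = χ t) ∧ 𝔪'.IsMaximal ∧ ∀ t ∈ m₀, χ' t ∈ 𝔪') := by
  obtain ⟨m, hmmax, hIm⟩ := Ideal.exists_le_maximal _ hm₀
  have : m.IsPrime := hmmax.isPrime
  obtain ⟨v, χ, hv, hχ, hker⟩ := Fermat.Agent.S49.exists_eigen_character ρ hρ m
  refine ⟨v, χ, hv, hχ, fun hint => ?_⟩
  have hint' : ∀ t : T, χ t ∈ integralClosure ℤ ℂ := fun t => hint t
  let χ' : T →+* integralClosure ℤ ℂ := χ.codRestrict (integralClosure ℤ ℂ) hint'
  have hχ' : ∀ t, ((χ' t : integralClosure ℤ ℂ) : ℂ) = χ t := fun t => rfl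
  let _ : Algebra T (integralClosure ℤ ℂ) := χ'.toAlgebra
  have : Algebra.IsIntegral T (integralClosure ℤ ℂ) :=
    ⟨fun x => IsIntegral.tower_top (R := ℤ) (integralClosure.isIntegral x)⟩
  have hker' : RingHom.ker (algebraMap T (integralClosure ℤ ℂ)) ≤ m := by
    intro t ht
    apply hker
    have h0 : χ' t = 0 := ht
    rw [← hχ', h0]
    rfl
  obtain ⟨Q, hQmax, hQ⟩ := Ideal.exists_ideal_over_maximal_of_isIntegral m hker'
  refine ⟨χ', Q, hχ', hQmax, fun t ht => ?_⟩
  have : t ∈ Q.comap (algebraMap T (integralClosure ℤ ℂ)) := by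
    rw [hQ]; exact hIm ht
  exact this

/-! ### complex characters of a finitely generated group -/

section

variable {H : Type*} [AddCommGroup H]

theorem s41asl_finiteDimensional (hH : AddGroup.FG H) : FiniteDimensional ℂ (H →+ ℂ) := by
  obtain ⟨s, hs⟩ := AddGroup.fg_def.1 hH
  let ev : (H →+ ℂ) →ₗ[ℂ] (s → ℂ) :=
    { toFun := fun c x => c x
      map_add' := fun _ _ => rfl
      map_smul' := fun _ _ => rfl }
  refine Module.Finite.of_injective ev ?_
  intro c d h
  refine AddMonoidHom.eq_of_eqOn_dense hs ?_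
  intro x hx
  exact congrFun h ⟨x, hx⟩

/-- the complexification of an integral character. -/
def s41aslC (k : H →+ ℤ) : H →+ ℂ := (Int.castAddHom ℂ).comp k

theorem s41aslC_apply (k : H →+ ℤ) (h : H) : s41aslC k h = ((k h : ℤ) : ℂ) := rfl

theorem s41aslC_injective : Function.Injective (s41aslC (H := H)) := by
  intro k k' h
  refine AddMonoidHom.ext fun x => ?_
  have := congrArg (fun c : H →+ ℂ => c x) h
  simp only [s41aslC_apply] at this
  exact_mod_cast this

theorem s41aslC_zero : s41aslC (0 : H →+ ℤ) = 0 := by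
  refine AddMonoidHom.ext fun x => ?_
  simp [s41aslC_apply]

theorem s41aslC_add (k k' : H →+ ℤ) : s41aslC (k + k') = s41aslC k + s41aslC k' := by
  refine AddMonoidHom.ext fun x => ?_
  simp [s41aslC_apply]

theorem s41aslC_neg (k : H →+ ℤ) : s41aslC (-k) = -s41aslC k := by
  refine AddMonoidHom.ext fun x => ?_
  simp [s41aslC_apply]

theorem s41aslC_sub (k k' : H →+ ℤ) : s41aslC (k - k') = s41aslC k - s41aslC k' := by
  refine AddMonoidHom.ext fun x => ?_
  simp [s41aslC_apply]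

theorem s41aslC_zsmul (m : ℤ) (k : H →+ ℤ) : s41aslC (m • k) = m • s41aslC k := by
  refine AddMonoidHom.ext fun x => ?_
  simp [s41aslC_apply]

theorem s41aslC_comp (k : H →+ ℤ) (t : H →+ H) : s41aslC (k.comp t) = (s41aslC k).comp t := rfl

/-- precomposition with `t`, as a `ℂ`-linear endomorphism of `Hom(H, ℂ)`. -/
def s41aslPre (t : H →+ H) : Module.End ℂ (H →+ ℂ) where
  toFun c := c.comp t
  map_add' _ _ := rfl
  map_smul' _ _ := rfl

theorem s41aslPre_apply (t : H →+ H) (c : H →+ ℂ) : s41aslPre t c = c.comp t := rfl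

/-- the `ℂ`-span of the complexifications of the elements of `K`. -/
def s41aslV (K : AddSubgroup (H →+ ℤ)) : Submodule ℂ (H →+ ℂ) :=
  Submodule.span ℂ (s41aslC '' (K : Set (H →+ ℤ)))

theorem s41aslC_mem_V {K : AddSubgroup (H →+ ℤ)} {k : H →+ ℤ} (hk : k ∈ K) :
    s41aslC k ∈ s41aslV K :=
  Submodule.subset_span ⟨k, hk, rfl⟩

/-- an eigenvalue of an endomorphism of a finitely generated group on a nonzero complex character
is an algebraic integer. -/
theorem s41asl_isIntegral_eigenvalue (hH : AddGroup.FG H) (t : H →+ H) {c : H →+ ℂ} (hc : c ≠ 0)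
    {a : ℂ} (h : c.comp t = a • c) : IsIntegral ℤ a := by
  have : Module.Finite ℤ H := Module.Finite.iff_addGroup_fg.mpr hH
  let Λ : Submodule ℤ ℂ := LinearMap.range c.toIntLinearMap
  have hfg : Λ.FG := Module.Finite.iff_fg.mp (Module.Finite.range c.toIntLinearMap)
  have hΛ : Λ ≠ ⊥ := by
    intro h0
    apply hc
    refine AddMonoidHom.ext fun x => ?_
    have : c x ∈ Λ := ⟨x, rfl⟩
    rw [h0, Submodule.mem_bot] at this
    exact this
  refine isIntegral_of_smul_mem_submodule Λ hΛ hfg a ?_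
  rintro _ ⟨x, rfl⟩
  refine ⟨t x, ?_⟩
  have := congrArg (fun d : H →+ ℂ => d x) h
  exact this

end

/-! ### the main statement -/

/-- **(ASM-U)** Deligne–Serre lifting. -/
theorem s41as_lift {H : Type*} [AddCommGroup H] (hH : AddGroup.FG H) {ι : Type*}
    (t : ι → H →+ H) (K : AddSubgroup (H →+ ℤ))
    (hK : ∀ i, ∀ y ∈ K, y.comp (t i) ∈ K)
    (hcomm : ∀ i j, ∀ y ∈ K, (y.comp (t i)).comp (t j) = (y.comp (t j)).comp (t i))
    (hsat : ∀ (m : ℤ) (y : H →+ ℤ), m ≠ 0 → m • y ∈ K → y ∈ K)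
    {p : ℕ} (hp : p.Prime) (J : Set ι) (n : ι → ℤ) (y : H →+ ℤ) (hy : y ∈ K)
    (hyp : ¬ ∃ z : H →+ ℤ, y = (p : ℤ) • z)
    (heig : ∀ i ∈ J, ∃ z : H →+ ℤ, y.comp (t i) - n i • y = (p : ℤ) • z) :
    ∃ (c : H →+ ℂ) (lam : ι → integralClosure ℤ ℂ) (𝔪' : Ideal (integralClosure ℤ ℂ)),
      c ≠ 0 ∧ (∀ h : H, (∀ k ∈ K, k h = 0) → c h = 0) ∧
      (∀ i, c.comp (t i) = (lam i : ℂ) • c) ∧ 𝔪'.IsMaximal ∧
      (p : integralClosure ℤ ℂ) ∈ 𝔪' ∧ ∀ i ∈ J, lam i - (n i : integralClosure ℤ ℂ) ∈ 𝔪' := by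
  classical
  have hp0 : (p : ℤ) ≠ 0 := Nat.cast_ne_zero.2 hp.ne_zero
  have hfd : FiniteDimensional ℂ (H →+ ℂ) := s41asl_finiteDimensional hH
  -- the operators on `V`
  have hV : ∀ i, ∀ c ∈ s41aslV K, s41aslPre (t i) c ∈ s41aslV K := by
    intro i c hc
    have hle : s41aslV K ≤ (s41aslV K).comap (s41aslPre (t i)) := by
      rw [s41aslV, Submodule.span_le]
      rintro _ ⟨k, hk, rfl⟩
      show s41aslPre (t i) (s41aslC k) ∈ s41aslV K
      rw [s41aslPre_apply, ← s41aslC_comp]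
      exact s41aslC_mem_V (hK i k hk)
    exact hle hc
  obtain ⟨R, hR⟩ : ∃ R : ι → Module.End ℂ (s41aslV K),
      ∀ i (v : s41aslV K), ((R i v : s41aslV K) : H →+ ℂ) = (v : H →+ ℂ).comp (t i) :=
    ⟨fun i => (s41aslPre (t i)).restrict (hV i), fun i v => rfl⟩
  have hRcomm : ∀ i j, R i * R j = R j * R i := by
    intro i j
    refine LinearMap.ext fun v => Subtype.ext ?_
    rw [Module.End.mul_apply, Module.End.mul_apply, hR, hR, hR, hR]
    have key : ∀ c ∈ s41aslV K, (c.comp (t j)).comp (t i) = (c.comp (t i)).comp (t j) := by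
      intro c hc
      have : ((s41aslPre (t i)).comp (s41aslPre (t j))) c
          = ((s41aslPre (t j)).comp (s41aslPre (t i))) c := by
        refine LinearMap.eqOn_span ?_ hc
        rintro _ ⟨k, hk, rfl⟩
        show ((s41aslC k).comp (t j)).comp (t i) = ((s41aslC k).comp (t i)).comp (t j)
        rw [← s41aslC_comp, ← s41aslC_comp, ← s41aslC_comp, ← s41aslC_comp, hcomm i j k hk]
      exact this
    exact key v v.2
  -- the commutative ring `T`
  obtain ⟨S, hS⟩ : ∃ S : Set (Module.End ℂ (s41aslV K)), S = Set.range R := ⟨_, rfl⟩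
  have hSc : ∀ x ∈ S, ∀ y ∈ S, x * y = y * x := by
    rw [hS]
    rintro _ ⟨i, rfl⟩ _ ⟨j, rfl⟩
    exact hRcomm i j
  have hcommT : IsMulCommutative (Subring.closure S) := Subring.isMulCommutative_closure hSc
  have hRS : ∀ i, R i ∈ Subring.closure S := fun i =>
    Subring.subset_closure (by rw [hS]; exact ⟨i, rfl⟩)
  -- the lattice `K` inside `V`
  have hInK : ∀ x ∈ Subring.closure S, ∀ v : s41aslV K,
      (∃ k ∈ K, (v : H →+ ℂ) = s41aslC k) → ∃ k ∈ K, ((x v : s41aslV K) : H →+ ℂ) = s41aslC k := by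
    intro x hx
    induction hx using Subring.closure_induction with
    | mem x hx =>
      rw [hS] at hx
      obtain ⟨i, rfl⟩ := hx
      rintro v ⟨k, hk, hv⟩
      exact ⟨k.comp (t i), hK i k hk, by rw [hR, hv, s41aslC_comp]⟩
    | zero =>
      rintro v -
      exact ⟨0, K.zero_mem, by rw [s41aslC_zero]; rfl⟩
    | one =>
      rintro v hv
      exact hv
    | add x x' _ _ ihx ihx' =>
      rintro v hv
      obtain ⟨k, hk, e⟩ := ihx v hv
      obtain ⟨k', hk', e'⟩ := ihx' v hv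
      refine ⟨k + k', K.add_mem hk hk', ?_⟩
      rw [LinearMap.add_apply, Submodule.coe_add, e, e', s41aslC_add]
    | neg x _ ihx =>
      rintro v hv
      obtain ⟨k, hk, e⟩ := ihx v hv
      refine ⟨-k, K.neg_mem hk, ?_⟩
      rw [LinearMap.neg_apply, Submodule.coe_neg, e, s41aslC_neg]
    | mul x x' _ _ ihx ihx' =>
      rintro v hv
      rw [Module.End.mul_apply]
      exact ihx _ (ihx' v hv)
  have hInPK : ∀ x ∈ Subring.closure S, ∀ v : s41aslV K,
      (∃ w : s41aslV K, (∃ k ∈ K, (w : H →+ ℂ) = s41aslC k) ∧ v = (p : ℤ) • w) →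
      ∃ w : s41aslV K, (∃ k ∈ K, (w : H →+ ℂ) = s41aslC k) ∧ x v = (p : ℤ) • w := by
    rintro x hx v ⟨w, hw, rfl⟩
    exact ⟨x w, hInK x hx w hw, map_zsmul x _ _⟩
  -- the element `y` of `V`
  obtain ⟨yV, hyV⟩ : ∃ yV : s41aslV K, (yV : H →+ ℂ) = s41aslC y :=
    ⟨⟨s41aslC y, s41aslC_mem_V hy⟩, rfl⟩
  have hyK : ∃ k ∈ K, (yV : H →+ ℂ) = s41aslC k := ⟨y, hy, hyV⟩
  have hyPK : ¬ ∃ w : s41aslV K, (∃ k ∈ K, (w : H →+ ℂ) = s41aslC k) ∧ yV = (p : ℤ) • w := by
    rintro ⟨w, ⟨k, -, hw⟩, e⟩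
    apply hyp
    refine ⟨k, s41aslC_injective ?_⟩
    rw [← hyV, e, s41aslC_zsmul, ← hw]
    rfl
  -- the ideal `m₀`
  obtain ⟨τ, hτ⟩ : ∃ τ : ι → Subring.closure S, ∀ i, ((τ i : Subring.closure S) :
      Module.End ℂ (s41aslV K)) = R i := ⟨fun i => ⟨R i, hRS i⟩, fun i => rfl⟩
  obtain ⟨G, hG⟩ : ∃ G : Set (Subring.closure S),
      G = {g | g = (p : Subring.closure S) ∨ ∃ i ∈ J, g = τ i - (n i : Subring.closure S)} :=
    ⟨_, rfl⟩
  have hm₀ : ∀ x ∈ Ideal.span G, ∃ w : s41aslV K, (∃ k ∈ K, (w : H →+ ℂ) = s41aslC k) ∧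
      (x : Module.End ℂ (s41aslV K)) yV = (p : ℤ) • w := by
    intro x hx
    induction hx using Submodule.span_induction with
    | mem g hg =>
      rw [hG] at hg
      rcases hg with rfl | ⟨i, hi, rfl⟩
      · refine ⟨yV, hyK, ?_⟩
        rw [Subring.coe_natCast, Module.End.natCast_apply, natCast_zsmul]
      · obtain ⟨z, hz⟩ := heig i hi
        have hzK : z ∈ K := by
          apply hsat (p : ℤ) z hp0
          rw [← hz]
          exact K.sub_mem (hK i y hy) (K.zsmul_mem hy _)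
        refine ⟨⟨s41aslC z, s41aslC_mem_V hzK⟩, ⟨z, hzK, rfl⟩, Subtype.ext ?_⟩
        rw [AddSubgroupClass.coe_sub, Subring.coe_intCast, hτ, LinearMap.sub_apply,
          Module.End.intCast_apply, Submodule.coe_sub, hR, AddSubgroupClass.coe_zsmul,
          AddSubgroupClass.coe_zsmul, hyV]
        show (s41aslC y).comp (t i) - n i • s41aslC y = (p : ℤ) • s41aslC z
        rw [← s41aslC_comp, ← s41aslC_zsmul, ← s41aslC_sub, hz, s41aslC_zsmul]
    | zero =>
      refine ⟨0, ⟨0, K.zero_mem, by rw [s41aslC_zero]; rfl⟩, ?_⟩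
      rw [Subring.coe_zero, LinearMap.zero_apply, smul_zero]
    | add x x' _ _ ihx ihx' =>
      obtain ⟨w, ⟨k, hk, e⟩, hw⟩ := ihx
      obtain ⟨w', ⟨k', hk', e'⟩, hw'⟩ := ihx'
      refine ⟨w + w', ⟨k + k', K.add_mem hk hk', ?_⟩, ?_⟩
      · rw [Submodule.coe_add, e, e', s41aslC_add]
      · rw [Subring.coe_add, LinearMap.add_apply, hw, hw', smul_add]
    | smul a x _ ihx =>
      rw [smul_eq_mul, Subring.coe_mul, Module.End.mul_apply]
      exact hInPK _ a.2 _ ihx
  have hm₀top : Ideal.span G ≠ ⊤ := by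
    intro htop
    have h1 : (1 : Subring.closure S) ∈ Ideal.span G := by rw [htop]; exact Submodule.mem_top
    obtain ⟨w, hw, e⟩ := hm₀ 1 h1
    rw [Subring.coe_one, Module.End.one_apply] at e
    exact hyPK ⟨w, hw, e⟩
  -- the eigen-character
  obtain ⟨v, χ, hv, hχ, hlift⟩ := s41asl_exists_character (Subring.closure S).subtype
    Subtype.coe_injective (Ideal.span G) hm₀top
  have hc0 : (v : H →+ ℂ) ≠ 0 := fun h0 => hv (Subtype.ext h0)
  have hceig : ∀ i, (v : H →+ ℂ).comp (t i) = χ (τ i) • (v : H →+ ℂ) := by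
    intro i
    have := congrArg (fun u : s41aslV K => (u : H →+ ℂ)) (hχ (τ i))
    simp only [Subring.coe_subtype, hτ, hR, Submodule.coe_smul] at this
    exact this
  have hintτ : ∀ i, IsIntegral ℤ (χ (τ i)) := fun i =>
    s41asl_isIntegral_eigenvalue hH (t i) hc0 (hceig i)
  have hint : ∀ x : Subring.closure S, IsIntegral ℤ (χ x) := by
    rintro ⟨x, hx⟩
    induction hx using Subring.closure_induction with
    | mem x hx =>
      obtain ⟨i, rfl⟩ : ∃ i, R i = x := by rw [hS] at hx; exact hx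
      have e : (⟨R i, Subring.subset_closure hx⟩ : Subring.closure S) = τ i :=
        Subtype.ext (hτ i).symm
      rw [e]
      exact hintτ i
    | zero =>
      have : χ ⟨0, Subring.zero_mem _⟩ = 0 := map_zero χ
      rw [this]
      exact isIntegral_zero
    | one =>
      have : χ ⟨1, Subring.one_mem _⟩ = 1 := map_one χ
      rw [this]
      exact isIntegral_one
    | add x x' hx hx' ihx ihx' =>
      have : χ ⟨x + x', Subring.add_mem _ hx hx'⟩ = χ ⟨x, hx⟩ + χ ⟨x', hx'⟩ :=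
        map_add χ ⟨x, hx⟩ ⟨x', hx'⟩
      rw [this]
      exact ihx.add ihx'
    | neg x hx ihx =>
      have : χ ⟨-x, Subring.neg_mem _ hx⟩ = -χ ⟨x, hx⟩ := map_neg χ ⟨x, hx⟩
      rw [this]
      exact ihx.neg
    | mul x x' hx hx' ihx ihx' =>
      have : χ ⟨x * x', Subring.mul_mem _ hx hx'⟩ = χ ⟨x, hx⟩ * χ ⟨x', hx'⟩ :=
        map_mul χ ⟨x, hx⟩ ⟨x', hx'⟩
      rw [this]
      exact ihx.mul ihx'
  obtain ⟨χ', 𝔪', hχ', hmax, hmem⟩ := hlift hint
  refine ⟨(v : H →+ ℂ), fun i => χ' (τ i), 𝔪', hc0, ?_, ?_, hmax, ?_, ?_⟩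
  · intro h hh
    have key : ∀ c ∈ s41aslV K, c h = 0 := by
      intro c hc
      induction hc using Submodule.span_induction with
      | mem c hc =>
        obtain ⟨k, hk, rfl⟩ := hc
        rw [s41aslC_apply, hh k hk, Int.cast_zero]
      | zero => rfl
      | add c c' _ _ ihc ihc' =>
        rw [AddMonoidHom.add_apply, ihc, ihc', add_zero]
      | smul a c _ ihc =>
        rw [AddMonoidHom.smul_apply, ihc, smul_zero]
    exact key v v.2
  · intro i
    rw [hχ']
    exact hceig i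
  · have h1 : (p : Subring.closure S) ∈ Ideal.span G :=
      Ideal.subset_span (by rw [hG]; exact Or.inl rfl)
    have := hmem _ h1
    rwa [map_natCast] at this
  · intro i hi
    have h1 : τ i - (n i : Subring.closure S) ∈ Ideal.span G :=
      Ideal.subset_span (by rw [hG]; exact Or.inr ⟨i, hi, rfl⟩)
    have := hmem _ h1
    rwa [map_sub, map_intCast] at this

end Fermat.Agent.S41
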