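import Mathlib

/-!
# S41, package ASM : the mod `p` core (file tag `s41as_`)

Pure linear algebra over a field `FF` (`import Mathlib` only).

* `s41as_orth_genEig` : a bilinear form for which a commuting family `T i` is self-adjoint : an
  element of the simultaneous generalised eigenspace `G = ⨅ i, maxGenEigenspace (T i) (θ i)` which is
  orthogonal to `G` is orthogonal to everything (Fitting decomposition, induction on the dimension).
* `s41as_core` : `α : X → Y`, `αt : Y → X` adjoint, `α` equivariant and injective on `X_θ`,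
  `αt ∘ α` singular on `X_θ`  ⟹  `dim X_θ < dim Y_θ`.
-/

set_option autoImplicit false

namespace Fermat.Agent.S41

open Module

universe u v w

section Restrict

variable {FF : Type v} [Field FF] {X : Type u} [AddCommGroup X] [Module FF X]

/-- powers of `f - μ` commute with restriction to a stable subspace. -/
theorem s41as_restrict_pow (f : Module.End FF X) (W : Submodule FF X)
    (hW : ∀ x ∈ W, f x ∈ W) (μ : FF) (k : ℕ) (x : W) :
    ((((f.restrict hW - μ • (1 : Module.End FF W)) ^ k) x : W) : X) =
      ((f - μ • (1 : Module.End FF X)) ^ k) (x : X) := by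
  induction k generalizing x with
  | zero => simp
  | succ k ih =>
    rw [pow_succ, pow_succ, Module.End.mul_apply, Module.End.mul_apply, ih]
    congr 1

/-- self-adjointness passes to `(f - μ)^k`. -/
theorem s41as_adj_pow {Z : Type*} [AddCommGroup Z] [Module FF Z] (B : X →ₗ[FF] Z →ₗ[FF] FF)
    (f : Module.End FF X) (f' : Module.End FF Z)
    (h : ∀ x z, B (f x) z = B x (f' z)) (μ : FF) (k : ℕ) (x : X) (z : Z) :
    B (((f - μ • (1 : Module.End FF X)) ^ k) x) z =
      B x (((f' - μ • (1 : Module.End FF Z)) ^ k) z) := by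
  induction k generalizing x z with
  | zero => simp
  | succ k ih =>
    rw [pow_succ, pow_succ', Module.End.mul_apply, Module.End.mul_apply, ih]
    simp [h]

end Restrict

/-- **Orthogonality lemma.**  `T i` a commuting family of endomorphisms of a finite-dimensional
space, self-adjoint for the bilinear form `B`.  If `g` lies in the simultaneous generalised
eigenspace `G` and `B g' g = 0` for all `g' ∈ G`, then `B x g = 0` for all `x`. -/
theorem s41as_orth_genEig {FF : Type v} [Field FF] {ι : Type w} (θ : ι → FF) (n : ℕ) :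
    ∀ (X : Type u) [AddCommGroup X] [Module FF X] [FiniteDimensional FF X],
      finrank FF X = n → ∀ (T : ι → Module.End FF X) (_ : ∀ i j, Commute (T i) (T j))
      (B : X →ₗ[FF] X →ₗ[FF] FF) (_ : ∀ i x x', B (T i x) x' = B x (T i x'))
      (g : X) (_ : g ∈ ⨅ i, (T i).maxGenEigenspace (θ i))
      (_ : ∀ g' ∈ ⨅ i, (T i).maxGenEigenspace (θ i), B g' g = 0), ∀ x, B x g = 0 := by
  induction n using Nat.strong_induction_on with
  | _ n IH =>
    intro X _ _ _ hn T hc B hsa g hg h0 x
    by_cases hall : ∀ i, (T i).maxGenEigenspace (θ i) = ⊤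
    · exact h0 x (by simp [hall])
    · obtain ⟨i, hi⟩ := not_forall.1 hall
      set W : Submodule FF X := (T i).maxGenEigenspace (θ i) with hWdef
      have hstab : ∀ j, ∀ x ∈ W, T j x ∈ W := fun j x hx =>
        Module.End.mapsTo_maxGenEigenspace_of_comm (hc i j) (θ i) hx
      have hgW : g ∈ W := (Submodule.mem_iInf _).1 hg i
      -- the induction hypothesis on `W`
      have hlt : finrank FF W < n := hn ▸ Submodule.finrank_lt hi
      have key : ∀ a ∈ W, B a g = 0 := by
        intro a ha
        have := IH (finrank FF W) hlt W rfl (fun j => (T j).restrict (hstab j))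
          (fun j k => LinearMap.restrict_commute (hc j k) (hstab j) (hstab k))
          ((B.domRestrict W).compl₂ W.subtype)
          (fun j y y' => by
            simp only [LinearMap.compl₂_apply, LinearMap.domRestrict_apply, Submodule.subtype_apply]
            exact hsa j _ _)
          ⟨g, hgW⟩
          (by
            rw [Submodule.mem_iInf]
            intro j
            rw [Module.End.mem_maxGenEigenspace]
            obtain ⟨k, hk⟩ := (Module.End.mem_maxGenEigenspace _ _ _).1
              ((Submodule.mem_iInf _).1 hg j)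
            refine ⟨k, Subtype.ext ?_⟩
            rw [s41as_restrict_pow]
            simpa using hk)
          (by
            intro g' hg'
            simp only [LinearMap.compl₂_apply, LinearMap.domRestrict_apply, Submodule.subtype_apply]
            refine h0 _ ?_
            rw [Submodule.mem_iInf] at hg' ⊢
            intro j
            obtain ⟨k, hk⟩ := (Module.End.mem_maxGenEigenspace _ _ _).1 (hg' j)
            rw [Module.End.mem_maxGenEigenspace]
            refine ⟨k, ?_⟩
            rw [← s41as_restrict_pow (T j) W (hstab j) (θ j) k g', hk]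
            rfl)
          ⟨a, ha⟩
        simpa using this
      -- Fitting decomposition for `f = T i - θ i`
      obtain ⟨k, hk⟩ := (Module.End.mem_maxGenEigenspace _ _ _).1 hgW
      set f : Module.End FF X := T i - θ i • (1 : Module.End FF X) with hf
      obtain ⟨m, hm⟩ := Filter.eventually_atTop.1 f.eventually_isCompl_ker_pow_range_pow
      have hcompl := hm (max m k) (le_max_left _ _)
      have hx : x ∈ LinearMap.ker (f ^ max m k) ⊔ LinearMap.range (f ^ max m k) := by
        rw [hcompl.sup_eq_top]; trivial
      obtain ⟨a, ha, b, hb, rfl⟩ := Submodule.mem_sup.1 hx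
      obtain ⟨y, rfl⟩ := hb
      have haW : a ∈ W := by
        rw [hWdef, Module.End.mem_maxGenEigenspace]
        exact ⟨_, ha⟩
      have hfg : (f ^ max m k) g = 0 := by
        rw [← Nat.sub_add_cancel (le_max_right m k), pow_add, Module.End.mul_apply, hk, map_zero]
      rw [map_add, LinearMap.add_apply, key a haW, zero_add,
        s41as_adj_pow B (T i) (T i) (hsa i) (θ i) (max m k) y g, hfg, map_zero]

/-- **The mod `p` core of level raising.**  `α : X → Y` equivariant for the commuting families,
`αt` adjoint to `α` for forms `BX`, `BY`, the `TY i` self-adjoint for the (right-separating) form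
`BY`.  If `α` is injective on the simultaneous generalised eigenspace `X_θ` and `αt ∘ α` kills a
nonzero vector of `X_θ`, then `dim X_θ < dim Y_θ`. -/
theorem s41as_core {FF : Type v} [Field FF] {ι : Type w} {X : Type*} {Y : Type u}
    [AddCommGroup X] [Module FF X] [FiniteDimensional FF X]
    [AddCommGroup Y] [Module FF Y] [FiniteDimensional FF Y]
    (TX : ι → Module.End FF X) (TY : ι → Module.End FF Y)
    (hcY : ∀ i j, Commute (TY i) (TY j))
    (BX : X →ₗ[FF] X →ₗ[FF] FF) (BY : Y →ₗ[FF] Y →ₗ[FF] FF)
    (hBY : ∀ y, (∀ y', BY y' y = 0) → y = 0)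
    (hsaY : ∀ i y y', BY (TY i y) y' = BY y (TY i y'))
    (α : X →ₗ[FF] Y) (αt : Y →ₗ[FF] X) (hadj : ∀ x y, BY (α x) y = BX x (αt y))
    (hαT : ∀ i x, α (TX i x) = TY i (α x)) (θ : ι → FF)
    (hinj : ∀ x ∈ ⨅ i, (TX i).maxGenEigenspace (θ i), α x = 0 → x = 0)
    (hsing : ∃ x ∈ ⨅ i, (TX i).maxGenEigenspace (θ i), x ≠ 0 ∧ αt (α x) = 0) :
    finrank FF ↥(⨅ i, (TX i).maxGenEigenspace (θ i)) <
      finrank FF ↥(⨅ i, (TY i).maxGenEigenspace (θ i)) := by
  set GX : Submodule FF X := ⨅ i, (TX i).maxGenEigenspace (θ i) with hGX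
  set GY : Submodule FF Y := ⨅ i, (TY i).maxGenEigenspace (θ i) with hGY
  -- `α` maps `GX` into `GY`
  have hpow : ∀ i (k : ℕ) x, α (((TX i - θ i • (1 : Module.End FF X)) ^ k) x) =
      ((TY i - θ i • (1 : Module.End FF Y)) ^ k) (α x) := by
    intro i k
    induction k with
    | zero => intro x; simp
    | succ k ih =>
      intro x
      rw [pow_succ, pow_succ, Module.End.mul_apply, Module.End.mul_apply, ih]
      simp [hαT]
  have hmaps : ∀ x ∈ GX, α x ∈ GY := by
    intro x hx
    rw [hGY, Submodule.mem_iInf]
    intro i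
    obtain ⟨k, hk⟩ := (Module.End.mem_maxGenEigenspace _ _ _).1 ((Submodule.mem_iInf _).1 hx i)
    rw [Module.End.mem_maxGenEigenspace]
    exact ⟨k, by rw [← hpow, hk, map_zero]⟩
  let α' : GX →ₗ[FF] GY := (α.domRestrict GX).codRestrict GY (fun x => hmaps x x.2)
  have hα'inj : Function.Injective α' := by
    rw [← LinearMap.ker_eq_bot, LinearMap.ker_eq_bot']
    intro x hx
    have : α (x : X) = 0 := congrArg Subtype.val hx
    exact Subtype.ext (hinj x x.2 this)
  have hle : finrank FF GX ≤ finrank FF GY := LinearMap.finrank_le_finrank_of_injective hα'inj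
  refine lt_of_le_of_ne hle fun heq => ?_
  have hα'surj : Function.Surjective α' :=
    (LinearMap.injective_iff_surjective_of_finrank_eq_finrank heq).1 hα'inj
  obtain ⟨x₀, hx₀, hx₀ne, hx₀M⟩ := hsing
  have hy₀ : α x₀ ∈ GY := hmaps x₀ hx₀
  have h0 : ∀ g' ∈ GY, BY g' (α x₀) = 0 := by
    intro g' hg'
    obtain ⟨x, hx⟩ := hα'surj ⟨g', hg'⟩
    have hx' : α (x : X) = g' := congrArg Subtype.val hx
    rw [← hx', hadj, hx₀M, map_zero]
  have hall := s41as_orth_genEig θ (finrank FF Y) Y rfl TY hcY BY hsaY (α x₀) hy₀ h0
  exact hx₀ne (hinj x₀ hx₀ (hBY _ hall))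

end Fermat.Agent.S41
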