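import Mathlib
import Fermat.Agent.G.Per.Reduce

/-!
# S41, package ASM, row ASM-D: descent of a complex eigen-character to an integral character
which is an eigen-character modulo `p`  (`s41as_descend`)

`H` a finitely generated abelian group with endomorphisms `τ i`, `ψ : H →+ ℂ` a nonzero
eigen-character with eigenvalues `a i ∈ ℤ̄` killing `S`, `𝔪 ∋ p` a maximal ideal of `ℤ̄` and integers
`n i ≡ a i mod 𝔪`.  Then there is `x : H →+ ℤ` killing `S`, not divisible by `p`, with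
`x ∘ τ i ≡ n i • x` modulo `p`.

Proof: `gpr_reduce` (helper1, G/Per/Reduce.lean) applied with `S' = ker ψ` and `k = ℤ̄/𝔪` gives a
nonzero `ψ' : H →+ κ` (`κ` a finite field of characteristic `p`) killing `ker ψ` with
`ψ' ∘ τ i = n i • ψ'`; compose with an `𝔽_p`-linear functional of `κ` not killing `ψ'`; the result
factors through the period lattice `Λ = ψ(H)`, which is free, hence lifts to `ℤ`.
-/

set_option autoImplicit false

noncomputable section

namespace Fermat.Agent.S41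

open Fermat.Agent.G

/-- a character `Λ →+ ZMod p` of a finite free `ℤ`-module lifts to `ℤ`. -/
theorem s41asd_lift_free {Λ : Type*} [AddCommGroup Λ] [Module.Free ℤ Λ] (p : ℕ)
    (g : Λ →+ ZMod p) : ∃ G : Λ →+ ℤ, ∀ l, ((G l : ℤ) : ZMod p) = g l := by
  classical
  let b := Module.Free.chooseBasis ℤ Λ
  choose c hc using fun i => ZMod.intCast_surjective (g (b i))
  let G : Λ →ₗ[ℤ] ℤ := b.constr ℤ c
  refine ⟨G.toAddMonoidHom, ?_⟩
  have h : (Int.castAddHom (ZMod p)).toIntLinearMap.comp G = g.toIntLinearMap := by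
    refine b.ext fun i => ?_
    simp only [LinearMap.comp_apply, AddMonoidHom.coe_toIntLinearMap, Int.coe_castAddHom]
    rw [show G (b i) = c i from b.constr_basis ℤ c i, hc]
  intro l
  exact LinearMap.congr_fun h l

/-- a character with values in `p ℤ` is `p` times a character. -/
theorem s41asd_exists_div {H : Type*} [AddCommGroup H] (p : ℕ) (hp : p ≠ 0) (z : H →+ ℤ)
    (hz : ∀ h, ((z h : ℤ) : ZMod p) = 0) : ∃ y : H →+ ℤ, z = p • y := by
  have hdvd : ∀ h, (p : ℤ) ∣ z h := fun h => (ZMod.intCast_zmod_eq_zero_iff_dvd _ _).mp (hz h)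
  have hp' : (p : ℤ) ≠ 0 := by exact_mod_cast hp
  refine ⟨{ toFun := fun h => z h / p
            map_zero' := by simp
            map_add' := fun h h' => by
              rw [map_add]
              exact Int.add_ediv_of_dvd_left (hdvd h) }, ?_⟩
  refine AddMonoidHom.ext fun h => ?_
  rw [AddMonoidHom.smul_apply]
  show z h = p • (z h / p)
  rw [nsmul_eq_mul, Int.mul_ediv_cancel' (hdvd h)]

/-- the version with `[Fact p.Prime]` and `ℕ`-multiples. -/
theorem s41asd_descend {H : Type*} [AddCommGroup H] (hH : AddGroup.FG H) {I : Type*}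
    (τ : I → H →+ H) (S : Set H) (a : I → integralClosure ℤ ℂ) (ψ : H →+ ℂ) (hψ : ψ ≠ 0)
    (hS : ∀ s ∈ S, ψ s = 0) (heig : ∀ i, ψ.comp (τ i) = (a i : ℂ) • ψ)
    {p : ℕ} [Fact p.Prime] (m : Ideal (integralClosure ℤ ℂ)) (hm : m.IsMaximal)
    (hpm : (p : integralClosure ℤ ℂ) ∈ m) (n : I → ℤ)
    (hn : ∀ i, a i - (n i : integralClosure ℤ ℂ) ∈ m) :
    ∃ x : H →+ ℤ, (∀ s ∈ S, x s = 0) ∧ (¬ ∃ y : H →+ ℤ, x = p • y) ∧
      ∀ i, ∃ y : H →+ ℤ, x.comp (τ i) - n i • x = p • y := by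
  classical
  have hp : p.Prime := Fact.out
  -- the residue field
  letI : Field (integralClosure ℤ ℂ ⧸ m) := Ideal.Quotient.field m
  haveI : CharP (integralClosure ℤ ℂ ⧸ m) p := by
    rw [CharP.charP_iff_prime_eq_zero hp]
    have : ((p : integralClosure ℤ ℂ ⧸ m)) = Ideal.Quotient.mk m (p : integralClosure ℤ ℂ) := by
      rw [map_natCast]
    rw [this]
    exact Ideal.Quotient.eq_zero_iff_mem.mpr hpm
  -- (RED) with `S' = ker ψ`
  obtain ⟨κ, _, _, _, ι, c, ψ', hψ'0, hψ'S, hc, hψ'eig⟩ :=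
    gpr_reduce hH τ {s | ψ s = 0} a ψ hψ (fun s hs => hs) heig
      (Ideal.Quotient.mk m : integralClosure ℤ ℂ →+* integralClosure ℤ ℂ ⧸ m)
  -- `c i = n i` in `κ`
  have hcn : ∀ i, c i = ((n i : ℤ) : κ) := by
    intro i
    apply ι.injective
    rw [hc, map_intCast]
    have h1 : Ideal.Quotient.mk m (a i) = Ideal.Quotient.mk m ((n i : ℤ) : integralClosure ℤ ℂ) :=
      Ideal.Quotient.eq.mpr (hn i)
    rw [h1, map_intCast]
  -- a functional of `κ` not killing `ψ'`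
  obtain ⟨h₀, hh₀⟩ : ∃ h₀, ψ' h₀ ≠ 0 := by
    by_contra hcon
    exact hψ'0 (AddMonoidHom.ext fun h => by
      by_contra hne
      exact hcon ⟨h, hne⟩)
  obtain ⟨f, hf⟩ : ∃ f : Module.Dual (ZMod p) κ, f (ψ' h₀) ≠ 0 := by
    by_contra hcon
    refine hh₀ ((Module.forall_dual_apply_eq_zero_iff (ZMod p) (ψ' h₀)).mp fun f => ?_)
    by_contra hne
    exact hcon ⟨f, hne⟩
  let ψ'' : H →+ ZMod p := f.toAddMonoidHom.comp ψ'
  have hψ''app : ∀ h, ψ'' h = f (ψ' h) := fun _ => rfl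
  -- the period lattice
  let Λ : Submodule ℤ ℂ := LinearMap.range ψ.toIntLinearMap
  haveI : Module.Finite ℤ H := Module.Finite.iff_addGroup_fg.mpr hH
  haveI : Module.Finite ℤ Λ := Module.Finite.range ψ.toIntLinearMap
  haveI : Module.Free ℤ Λ := Module.free_of_finite_type_torsion_free'
  let π : H →+ Λ := (ψ.toIntLinearMap.rangeRestrict : H →ₗ[ℤ] Λ).toAddMonoidHom
  have hπapp : ∀ h, ((π h : Λ) : ℂ) = ψ h := fun _ => rfl
  have hπsurj : Function.Surjective π := by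
    rintro ⟨_, h, rfl⟩
    exact ⟨h, rfl⟩
  have hker : π.ker ≤ ψ''.ker := by
    intro h hh
    rw [AddMonoidHom.mem_ker] at hh ⊢
    have h0 : ψ h = 0 := by rw [← hπapp, hh]; rfl
    rw [hψ''app, hψ'S h h0, map_zero]
  -- `ψ''` factors through `Λ`
  let g : Λ →+ ZMod p :=
    π.liftOfRightInverse (Function.surjInv hπsurj) (Function.rightInverse_surjInv hπsurj)
      ⟨ψ'', hker⟩
  have hg : ∀ h, g (π h) = ψ'' h := fun h =>
    AddMonoidHom.liftOfRightInverse_comp_apply π _ (Function.rightInverse_surjInv hπsurj)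
      ⟨ψ'', hker⟩ h
  obtain ⟨G, hG⟩ := s41asd_lift_free p g
  let x : H →+ ℤ := G.comp π
  have hxapp : ∀ h, ((x h : ℤ) : ZMod p) = ψ'' h := fun h => by
    show ((G (π h) : ℤ) : ZMod p) = _
    rw [hG, hg]
  refine ⟨x, ?_, ?_, ?_⟩
  · intro s hs
    have : π s = 0 := Subtype.ext (by rw [hπapp, hS s hs]; rfl)
    show G (π s) = 0
    rw [this, map_zero]
  · rintro ⟨y, hy⟩
    apply hf
    rw [← hψ''app, ← hxapp, hy, AddMonoidHom.smul_apply]
    simp
  · intro i
    apply s41asd_exists_div p hp.ne_zero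
    intro h
    rw [AddMonoidHom.sub_apply, AddMonoidHom.comp_apply, AddMonoidHom.smul_apply, Int.cast_sub,
      hxapp, zsmul_eq_mul, Int.cast_mul, hxapp, hψ''app, hψ''app]
    have h1 := DFunLike.congr_fun (hψ'eig i) h
    rw [AddMonoidHom.comp_apply, AddMonoidHom.smul_apply] at h1
    have h3 : ψ' (τ i h) = (n i : ℤ) • ψ' h := by
      rw [h1, hcn i, smul_eq_mul, zsmul_eq_mul]
    rw [h3, map_zsmul, zsmul_eq_mul, Int.cast_id, sub_self]

/-- **(ASM-D)** `Fermat/Agent/S41/ASM/Descend.lean`.  From a complex eigen-character to an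
integral character which is an eigenvector mod `p` (variant of `gpr_reduce`, G/Per/Reduce.lean: the
reduction factors through the free period lattice `ψ(H)`, hence lifts to `ℤ`). -/
theorem s41as_descend {H : Type*} [AddCommGroup H] (hH : AddGroup.FG H) {I : Type*}
    (τ : I → H →+ H) (S : Set H) (a : I → integralClosure ℤ ℂ) (ψ : H →+ ℂ) (hψ : ψ ≠ 0)
    (hS : ∀ s ∈ S, ψ s = 0) (heig : ∀ i, ψ.comp (τ i) = (a i : ℂ) • ψ)
    {p : ℕ} (hp : p.Prime) (𝔪 : Ideal (integralClosure ℤ ℂ)) (hmax : 𝔪.IsMaximal)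
    (hpm : (p : integralClosure ℤ ℂ) ∈ 𝔪) (n : I → ℤ)
    (hn : ∀ i, a i - (n i : integralClosure ℤ ℂ) ∈ 𝔪) :
    ∃ x : H →+ ℤ, (∀ s ∈ S, x s = 0) ∧ (¬ ∃ z : H →+ ℤ, x = (p : ℤ) • z) ∧
      ∀ i, ∃ z : H →+ ℤ, x.comp (τ i) - n i • x = (p : ℤ) • z := by
  haveI : Fact p.Prime := ⟨hp⟩
  obtain ⟨x, hxS, hxp, hxe⟩ := s41asd_descend hH τ S a ψ hψ hS heig 𝔪 hmax hpm n hn
  refine ⟨x, hxS, ?_, ?_⟩
  · rintro ⟨z, hz⟩
    exact hxp ⟨z, by rw [hz, natCast_zsmul]⟩
  · intro i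
    obtain ⟨y, hy⟩ := hxe i
    exact ⟨y, by rw [hy, natCast_zsmul]⟩

end Fermat.Agent.S41
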