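import Mathlib
import Fermat.Agent.S41.ASM.Core

/-!
# S41, package ASM : simultaneous eigenvectors of a commuting family (file tag `s41as_`)

Generic linear algebra over an algebraically closed field `K` (`import Mathlib` only).

* `s41asSys f` : the set of systems of eigenvalues of simultaneous eigenvectors of the family `f`;
* `s41as_exists_eigen` : a nonzero stable subspace contains a simultaneous eigenvector;
* `s41as_sys_finite` : finitely many systems;
* `s41as_le_genEig` / `s41as_genEig_le` : for a finitely supported combination `t = ∑ c i • f i`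
  the generalised eigenspace of `t` at `∑ c i * χ₀ i` contains the simultaneous generalised
  eigenspace of `χ₀`, and equals it if `c` separates `χ₀` from the other systems.
-/

set_option autoImplicit false

namespace Fermat.Agent.S41

open Module

section Field

variable {K : Type*} [Field K] {M : Type*} [AddCommGroup M] [Module K M]
  {ι : Type*} (f : ι → Module.End K M)

/-- systems of eigenvalues of the simultaneous eigenvectors of the family `f`. -/
def s41asSys : Set (ι → K) := {χ | ∃ v : M, v ≠ 0 ∧ ∀ i, f i v = χ i • v}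

/-- the finitely supported combination `∑ c i • f i`. -/
noncomputable def s41asComb (c : ι →₀ K) : Module.End K M := c.sum fun i a => a • f i

/-- the value `∑ c i * χ i` of a system at a combination. -/
noncomputable def s41asVal (c : ι →₀ K) (χ : ι → K) : K := c.sum fun i a => a * χ i

theorem s41asComb_apply (c : ι →₀ K) (v : M) :
    s41asComb f c v = c.sum fun i a => a • f i v := by
  simp [s41asComb, Finsupp.sum, LinearMap.sum_apply]

theorem s41asComb_eigen (c : ι →₀ K) {χ : ι → K} {v : M} (hv : ∀ i, f i v = χ i • v) :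
    s41asComb f c v = s41asVal c χ • v := by
  rw [s41asComb_apply, s41asVal, Finsupp.sum, Finsupp.sum, Finset.sum_smul]
  exact Finset.sum_congr rfl fun i _ => by rw [hv, smul_smul]

theorem s41asComb_commute (hc : ∀ i j, Commute (f i) (f j)) (c : ι →₀ K) (j : ι) :
    Commute (s41asComb f c) (f j) := by
  unfold s41asComb Finsupp.sum
  exact Commute.sum_left _ _ _ fun i _ => (hc i j).smul_left _

/-- an eigenvector lying in a generalised eigenspace has that eigenvalue. -/
theorem s41as_eigenvalue_eq (g : Module.End K M) {a μ : K} {v : M} (hv0 : v ≠ 0)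
    (hv : g v = a • v) (hmem : v ∈ g.maxGenEigenspace μ) : a = μ := by
  by_contra hne
  have h1 : v ∈ g.maxGenEigenspace a :=
    Module.End.eigenspace_le_maxGenEigenspace (Module.End.mem_eigenspace_iff.2 hv)
  have := (Module.End.disjoint_genEigenspace g hne ⊤ ⊤).le_bot ⟨h1, hmem⟩
  exact hv0 ((Submodule.mem_bot K).1 this)

variable [FiniteDimensional K M]

/-- the simultaneous generalised eigenspace is contained in the generalised eigenspace of every
combination. -/
theorem s41as_le_genEig (hc : ∀ i j, Commute (f i) (f j)) (c : ι →₀ K) (χ₀ : ι → K) :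
    (⨅ i, (f i).maxGenEigenspace (χ₀ i)) ≤
      (s41asComb f c).maxGenEigenspace (s41asVal c χ₀) := by
  set G : Submodule K M := ⨅ i, (f i).maxGenEigenspace (χ₀ i) with hG
  have hst : ∀ j, ∀ x ∈ G, f j x ∈ G := by
    intro j x hx
    rw [hG, Submodule.mem_iInf] at hx ⊢
    exact fun i => Module.End.mapsTo_maxGenEigenspace_of_comm (hc i j) (χ₀ i) (hx i)
  have hstt : ∀ x ∈ G, s41asComb f c x ∈ G := by
    intro x hx
    rw [s41asComb_apply]
    exact Submodule.sum_mem _ fun i _ => Submodule.smul_mem _ _ (hst i x hx)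
  -- the restricted shifted operators are nilpotent
  have hnil : ∀ j, IsNilpotent ((f j).restrict (hst j) - χ₀ j • (1 : Module.End K G)) := by
    intro j
    rw [Module.End.isNilpotent_iff_of_finite]
    intro x
    obtain ⟨k, hk⟩ := (Module.End.mem_maxGenEigenspace _ _ _).1 ((Submodule.mem_iInf _).1 x.2 j)
    exact ⟨k, Subtype.ext (by rw [s41as_restrict_pow]; simpa using hk)⟩
  have hsum : (s41asComb f c).restrict hstt - s41asVal c χ₀ • (1 : Module.End K G) =
      ∑ j ∈ c.support, c j • ((f j).restrict (hst j) - χ₀ j • (1 : Module.End K G)) := by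
    ext x
    simp only [LinearMap.sub_apply, LinearMap.coe_restrict_apply, LinearMap.smul_apply,
      Module.End.one_apply, Submodule.coe_sub, Submodule.coe_smul, LinearMap.sum_apply,
      Submodule.coe_sum, s41asVal, Finsupp.sum, Finset.sum_smul, smul_sub,
      Finset.sum_sub_distrib, smul_smul]
    rw [s41asComb_apply, Finsupp.sum]
  have hnil' : IsNilpotent ((s41asComb f c).restrict hstt - s41asVal c χ₀ • (1 : Module.End K G)) := by
    rw [hsum]
    refine Commute.isNilpotent_sum (fun j _ => (hnil j).smul _) fun i j _ _ => ?_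
    refine ((Commute.sub_left ?_ ?_).sub_right ?_).smul_left _ |>.smul_right _
    · exact LinearMap.restrict_commute (hc i j) (hst i) (hst j)
    · exact (Commute.one_left _).smul_left _
    · exact ((Commute.one_right _).smul_right _)
  obtain ⟨k, hk⟩ := hnil'
  intro x hx
  rw [Module.End.mem_maxGenEigenspace]
  refine ⟨k, ?_⟩
  have := congrArg (fun g : Module.End K G => ((g ⟨x, hx⟩ : G) : M)) hk
  simpa [s41as_restrict_pow] using this

variable [IsAlgClosed K]

/-- a nonzero subspace stable under a commuting family contains a simultaneous eigenvector. -/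
theorem s41as_exists_eigen (hc : ∀ i j, Commute (f i) (f j)) :
    ∀ (n : ℕ) (W : Submodule K M), finrank K W = n → W ≠ ⊥ → (∀ i, ∀ x ∈ W, f i x ∈ W) →
      ∃ (χ : ι → K) (v : M), v ∈ W ∧ v ≠ 0 ∧ ∀ i, f i v = χ i • v := by
  intro n
  induction n using Nat.strong_induction_on with
  | _ n IH =>
    intro W hn hW hst
    by_cases hsc : ∀ i, ∃ a : K, ∀ w ∈ W, f i w = a • w
    · choose χ hχ using hsc
      obtain ⟨v, hvW, hv0⟩ := Submodule.exists_mem_ne_zero_of_ne_bot hW
      exact ⟨χ, v, hvW, hv0, fun i => hχ i v hvW⟩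
    · obtain ⟨i, hi⟩ := not_forall.1 hsc
      rw [not_exists] at hi
      have : Nontrivial W := (Submodule.nontrivial_iff_ne_bot).2 hW
      obtain ⟨μ, hμ⟩ := Module.End.exists_eigenvalue ((f i).restrict (hst i))
      obtain ⟨w, hw⟩ := hμ.exists_hasEigenvector
      have hw1 : f i (w : M) = μ • (w : M) := by
        have := congrArg Subtype.val hw.apply_eq_smul
        simpa using this
      have hw0 : (w : M) ≠ 0 := fun h => hw.2 (Subtype.ext h)
      set W' : Submodule K M := W ⊓ (f i).eigenspace μ with hW'
      have hwW' : (w : M) ∈ W' := ⟨w.2, Module.End.mem_eigenspace_iff.2 hw1⟩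
      have hW'0 : W' ≠ ⊥ := fun h => hw0 (by simpa [h] using hwW')
      have hlt : W' < W := by
        refine lt_of_le_of_ne inf_le_left fun heq => hi μ fun x hx => ?_
        have : x ∈ W' := heq ▸ hx
        exact Module.End.mem_eigenspace_iff.1 this.2
      have hst' : ∀ j, ∀ x ∈ W', f j x ∈ W' := by
        intro j x hx
        refine ⟨hst j x hx.1, Module.End.mem_eigenspace_iff.2 ?_⟩
        have h1 := Module.End.mem_eigenspace_iff.1 hx.2
        have h2 : f i (f j x) = f j (f i x) := by
          have := congrArg (fun g : Module.End K M => g x) (hc i j).eq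
          simpa using this
        rw [h2, h1, map_smul]
      obtain ⟨χ, v, hv, hv0, hev⟩ := IH (finrank K W') (hn ▸ Submodule.finrank_lt_finrank_of_lt hlt)
        W' rfl hW'0 hst'
      exact ⟨χ, v, hv.1, hv0, hev⟩

omit [IsAlgClosed K] in
/-- the set of systems of eigenvalues is finite. -/
theorem s41as_sys_finite (hc : ∀ i j, Commute (f i) (f j)) : (s41asSys f).Finite := by
  have hind := Module.End.independent_iInf_maxGenEigenspace_of_forall_mapsTo f
    (fun i j φ => Module.End.mapsTo_maxGenEigenspace_of_comm (hc j i) φ)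
  refine (WellFoundedGT.finite_ne_bot_of_iSupIndep hind).subset ?_
  rintro χ ⟨v, hv0, hv⟩
  intro hbot
  have : v ∈ ⨅ i, (f i).maxGenEigenspace (χ i) := by
    rw [Submodule.mem_iInf]
    exact fun i => Module.End.eigenspace_le_maxGenEigenspace
      (Module.End.mem_eigenspace_iff.2 (hv i))
  rw [hbot] at this
  exact hv0 ((Submodule.mem_bot K).1 this)

/-- if the combination `c` separates `χ₀` from the other systems of eigenvalues, the generalised
eigenspace of `∑ c i • f i` at `∑ c i * χ₀ i` is the simultaneous generalised eigenspace. -/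
theorem s41as_genEig_le (hc : ∀ i j, Commute (f i) (f j)) (c : ι →₀ K) (χ₀ : ι → K)
    (hsep : ∀ χ ∈ s41asSys f, χ ≠ χ₀ → s41asVal c χ ≠ s41asVal c χ₀) :
    (s41asComb f c).maxGenEigenspace (s41asVal c χ₀) ≤
      ⨅ i, (f i).maxGenEigenspace (χ₀ i) := by
  set t := s41asComb f c with ht
  set μ₀ := s41asVal c χ₀ with hμ₀
  set W : Submodule K M := t.maxGenEigenspace μ₀ with hW
  have hstW : ∀ j, ∀ x ∈ W, f j x ∈ W := fun j x hx =>
    Module.End.mapsTo_maxGenEigenspace_of_comm (s41asComb_commute f hc c j) μ₀ hx
  rw [le_iInf_iff]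
  intro i
  by_contra hnot
  -- the restriction of `f i` to `W` has a generalised eigenvalue `μ ≠ χ₀ i`
  set g : Module.End K W := (f i).restrict (hstW i) with hg
  have hex : ∃ μ, μ ≠ χ₀ i ∧ g.maxGenEigenspace μ ≠ ⊥ := by
    by_contra hno
    push Not at hno
    apply hnot
    have htop : g.maxGenEigenspace (χ₀ i) = ⊤ := by
      rw [eq_top_iff, ← Module.End.iSup_maxGenEigenspace_eq_top g]
      refine iSup_le fun μ => ?_
      by_cases hμ : μ = χ₀ i
      · rw [hμ]
      · rw [hno μ hμ]; exact bot_le
    intro x hx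
    have : (⟨x, hx⟩ : W) ∈ g.maxGenEigenspace (χ₀ i) := htop ▸ Submodule.mem_top
    obtain ⟨k, hk⟩ := (Module.End.mem_maxGenEigenspace _ _ _).1 this
    rw [Module.End.mem_maxGenEigenspace]
    refine ⟨k, ?_⟩
    have := congrArg Subtype.val hk
    rw [s41as_restrict_pow] at this
    simpa using this
  obtain ⟨μ, hμ, hne⟩ := hex
  obtain ⟨w, hwmem, hw0⟩ := Submodule.exists_mem_ne_zero_of_ne_bot hne
  obtain ⟨k, hk⟩ := (Module.End.mem_maxGenEigenspace _ _ _).1 hwmem
  set W'' : Submodule K M := W ⊓ (f i).maxGenEigenspace μ with hW''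
  have hwW'' : (w : M) ∈ W'' := by
    refine ⟨w.2, (Module.End.mem_maxGenEigenspace _ _ _).2 ⟨k, ?_⟩⟩
    have := congrArg Subtype.val hk
    rw [s41as_restrict_pow] at this
    simpa using this
  have hW''0 : W'' ≠ ⊥ := fun h => hw0 (Subtype.ext (by simpa [h] using hwW''))
  have hst'' : ∀ j, ∀ x ∈ W'', f j x ∈ W'' := fun j x hx =>
    ⟨hstW j x hx.1, Module.End.mapsTo_maxGenEigenspace_of_comm (hc i j) μ hx.2⟩
  obtain ⟨χ, v, hv, hv0, hev⟩ := s41as_exists_eigen f hc _ W'' rfl hW''0 hst''
  have hχi : χ i = μ := s41as_eigenvalue_eq (f i) hv0 (hev i) hv.2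
  have hχne : χ ≠ χ₀ := fun h => hμ (by rw [← hχi, h])
  have hval : s41asVal c χ = μ₀ :=
    s41as_eigenvalue_eq t hv0 (s41asComb_eigen f c hev) hv.1
  exact hsep χ ⟨v, hv0, hev⟩ hχne hval

end Field

end Fermat.Agent.S41
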