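import Mathlib
import Fermat.Agent.S41.ASM.Eigen

/-!
# S41, package ASM : lifting a mod `p` dimension inequality to characteristic `0` (file tag `s41as_`)

* `s41as_exists_sep` : a finitely supported combination separating `χ₀` from a finite set of systems;
* `s41as_rootMult_red` : root multiplicities of the reduction of a split monic polynomial;
* `s41as_lift_abstract` : the lifting theorem.
-/

set_option autoImplicit false

namespace Fermat.Agent.S41

open Module Polynomial

/-! ### separating combinations -/

section Sep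

variable {K : Type*} [Field K] {ι : Type*}

theorem s41asVal_add_single (c : ι →₀ K) (i : ι) (z : K) (χ : ι → K) :
    s41asVal (c + Finsupp.single i z) χ = s41asVal c χ + z * χ i := by
  unfold s41asVal
  rw [Finsupp.sum_add_index' (fun _ => by simp) (fun _ _ _ => by ring),
    Finsupp.sum_single_index (by simp)]

theorem s41as_exists_sep [Infinite K] (S : Set (ι → K)) (hS : S.Finite) (χ₀ : ι → K) :
    ∃ c : ι →₀ K, ∀ χ ∈ S, χ ≠ χ₀ → s41asVal c χ ≠ s41asVal c χ₀ := by
  induction S, hS using Set.Finite.induction_on with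
  | empty => exact ⟨0, fun χ hχ => absurd hχ (Set.notMem_empty χ)⟩
  | @insert χ' S hχ' hS IH =>
    obtain ⟨c, hc⟩ := IH
    by_cases h0 : χ' = χ₀
    · refine ⟨c, fun χ hχ hne => ?_⟩
      rcases hχ with rfl | hχ
      · exact absurd h0 hne
      · exact hc χ hχ hne
    · obtain ⟨i, hi⟩ := Function.ne_iff.1 h0
      set B : Set K := (fun χ : ι → K => (s41asVal c χ₀ - s41asVal c χ) / (χ i - χ₀ i)) ''
        (insert χ' S) with hB
      have hBfin : B.Finite := (hS.insert χ').image _
      obtain ⟨z, hz⟩ := hBfin.exists_notMem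
      refine ⟨c + Finsupp.single i z, fun χ hχ hne heq => ?_⟩
      rw [s41asVal_add_single, s41asVal_add_single] at heq
      by_cases hχi : χ i = χ₀ i
      · have hχS : χ ∈ S := by
          rcases hχ with rfl | hχ
          · exact absurd hχi hi
          · exact hχ
        rw [hχi] at heq
        exact hc χ hχS hne (add_right_cancel heq)
      · apply hz
        refine ⟨χ, hχ, ?_⟩
        have hd : χ i - χ₀ i ≠ 0 := sub_ne_zero.2 hχi
        rw [div_eq_iff hd]
        linear_combination (-1 : K) * heq

end Sep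

/-! ### root multiplicities of the reduction of a split polynomial -/

section Red

variable {R : Type*} [CommRing R] [IsDomain R]

omit [CommRing R] [IsDomain R] in
theorem s41as_card_filter_eq [DecidableEq R] (m : Multiset R) (p : R → Prop) [DecidablePred p]
    (Z : Finset R) (hZ : ∀ r ∈ m, r ∈ Z) :
    Multiset.card (m.filter p) = ∑ r ∈ Z.filter p, m.count r := by
  classical
  rw [← Multiset.toFinset_sum_count_eq (m.filter p)]
  have hsub : (m.filter p).toFinset ⊆ Z.filter p := by
    intro r hr
    rw [Multiset.mem_toFinset, Multiset.mem_filter] at hr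
    exact Finset.mem_filter.2 ⟨hZ r hr.1, hr.2⟩
  rw [Finset.sum_subset hsub]
  · refine Finset.sum_congr rfl fun r hr => ?_
    rw [Multiset.count_filter, if_pos (Finset.mem_filter.1 hr).2]
  · intro r hr hnot
    rw [Multiset.mem_toFinset] at hnot
    rw [Multiset.count_filter, if_pos (Finset.mem_filter.1 hr).2]
    rw [Multiset.mem_filter, not_and] at hnot
    exact Multiset.count_eq_zero.2 fun h => hnot h (Finset.mem_filter.1 hr).2

theorem s41as_rootMult_red {FF : Type*} [Field FF] (res : R →+* FF) (P : R[X]) (hP : P.Monic)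
    (hsplit : Multiset.card P.roots = P.natDegree) (Z : Finset R) (hZ : ∀ r ∈ P.roots, r ∈ Z)
    (a : FF) [DecidablePred fun r : R => res r = a] :
    (P.map res).rootMultiplicity a = ∑ r ∈ Z.filter (fun r => res r = a), P.rootMultiplicity r := by
  classical
  have hprod := prod_multiset_X_sub_C_of_monic_of_roots_card_eq hP hsplit
  have hmap : P.map res = ((P.roots.map res).map fun b => X - C b).prod := by
    conv_lhs => rw [← hprod]
    rw [Polynomial.map_multiset_prod, Multiset.map_map, Multiset.map_map]
    congr 1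
    refine Multiset.map_congr rfl fun r _ => ?_
    simp
  have hroots : (P.map res).roots = P.roots.map res := by
    rw [hmap, Polynomial.roots_multiset_prod_X_sub_C]
  rw [← Polynomial.count_roots, hroots, Multiset.count_map,
    Finset.sum_congr rfl fun r _ => (Polynomial.count_roots P (a := r)).symm,
    ← s41as_card_filter_eq P.roots (fun r => res r = a) Z hZ]
  congr 1
  refine Multiset.filter_congr fun r _ => ?_
  exact eq_comm

/-- a monic polynomial all of whose roots in an algebraically closed overfield come from `R`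
splits over `R`. -/
theorem s41as_card_roots {Ω : Type*} [Field Ω] [IsAlgClosed Ω] (emb : R →+* Ω)
    (hemb : Function.Injective emb) (P : R[X]) (hP : P.Monic)
    (hr : ∀ z : Ω, (P.map emb).IsRoot z → z ∈ emb.range) :
    Multiset.card P.roots = P.natDegree := by
  classical
  have h1 : (P.map emb).roots = P.roots.map emb := by
    ext z
    by_cases hz : z ∈ emb.range
    · obtain ⟨r, rfl⟩ := hz
      rw [Multiset.count_map_eq_count' _ _ hemb, Polynomial.count_roots, Polynomial.count_roots,
        ← Polynomial.eq_rootMultiplicity_map hemb]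
    · have h2 : z ∉ (P.map emb).roots := fun h =>
        hz (hr z ((Polynomial.mem_roots (hP.map emb).ne_zero).1 h))
      have h3 : z ∉ P.roots.map emb := fun h => by
        obtain ⟨r, _, rfl⟩ := Multiset.mem_map.1 h
        exact hz ⟨r, rfl⟩
      rw [Multiset.count_eq_zero.2 h2, Multiset.count_eq_zero.2 h3]
  have h2 : Multiset.card (P.map emb).roots = (P.map emb).natDegree :=
    (IsAlgClosed.splits (P.map emb)).natDegree_eq_card_roots.symm
  rw [h1, Multiset.card_map, hP.natDegree_map] at h2
  exact h2

end Red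

/-! ### characteristic polynomials of combinations and base change -/

section CP

open TensorProduct

variable {R : Type*} [CommRing R] {V : Type*} [AddCommGroup V] [Module.Free ℤ V] [Module.Finite ℤ V]
  {ι : Type*} (T : ι → Module.End ℤ V)

/-- the characteristic polynomial (over `R`) of the combination `∑ c i • T i`. -/
noncomputable def s41asPoly (c : ι →₀ R) : R[X] :=
  (c.sum fun i a => a • (LinearMap.toMatrix (Module.Free.chooseBasis ℤ V)
    (Module.Free.chooseBasis ℤ V) (T i)).map (Int.castRingHom R)).charpoly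

theorem s41asPoly_monic (c : ι →₀ R) : (s41asPoly T c).Monic := Matrix.charpoly_monic _

theorem s41as_charpoly_comb {K : Type*} [Field K] (φ : R →+* K) (c : ι →₀ R) :
    (s41asComb (fun i => (T i).baseChange K) (c.mapRange φ (map_zero φ))).charpoly =
      (s41asPoly T c).map φ := by
  classical
  rw [← LinearMap.charpoly_toMatrix _ (Algebra.TensorProduct.basis K (Module.Free.chooseBasis ℤ V)),
    s41asPoly, ← Matrix.charpoly_map]
  congr 1
  unfold s41asComb
  rw [Finsupp.sum_mapRange_index (fun i => by simp)]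
  unfold Finsupp.sum
  rw [map_sum]
  ext j k
  simp only [map_smul, LinearMap.toMatrix_baseChange, Matrix.sum_apply, Matrix.smul_apply,
    Matrix.map_apply, smul_eq_mul, map_sum, map_mul, eq_intCast, algebraMap_int_eq, map_intCast]

theorem s41asVal_mapRange {K : Type*} [Field K] (φ : R →+* K) (c : ι →₀ R) (lam : ι → R) :
    s41asVal (c.mapRange φ (map_zero φ)) (fun i => φ (lam i)) =
      φ (c.sum fun i a => a * lam i) := by
  unfold s41asVal
  rw [Finsupp.sum_mapRange_index (fun i => by simp)]
  unfold Finsupp.sum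
  simp [map_sum]

omit [Module.Free ℤ V] [Module.Finite ℤ V] in
theorem s41as_baseChange_commute {K : Type*} [Field K] (hc : ∀ i j, Commute (T i) (T j))
    (i j : ι) : Commute ((T i).baseChange K) ((T j).baseChange K) := by
  show (T i).baseChange K * (T j).baseChange K = (T j).baseChange K * (T i).baseChange K
  rw [← LinearMap.baseChange_mul, ← LinearMap.baseChange_mul, (hc i j).eq]

/-- the dimension of a generalised eigenspace of the reduction of `∑ c i • T i` is the sum of the
dimensions of the generalised eigenspaces in characteristic `0` whose eigenvalue reduces to it. -/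
theorem s41as_finrank_red {FF Ω : Type*} [Field FF] [Field Ω] [IsAlgClosed Ω] [IsDomain R]
    (res : R →+* FF) (emb : R →+* Ω) (hemb : Function.Injective emb)
    (hint : ∀ (P : R[X]) (z : Ω), P.Monic → (P.map emb).IsRoot z → z ∈ emb.range)
    (c : ι →₀ R) (μ₀ : FF) (Z : Finset R) (hZ : ∀ r ∈ (s41asPoly T c).roots, r ∈ Z)
    [DecidablePred fun r : R => res r = μ₀] :
    finrank FF ↥((s41asComb (fun i => (T i).baseChange FF)
        (c.mapRange res (map_zero res))).maxGenEigenspace μ₀) =
      ∑ r ∈ Z.filter (fun r => res r = μ₀),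
        finrank Ω ↥((s41asComb (fun i => (T i).baseChange Ω)
          (c.mapRange emb (map_zero emb))).maxGenEigenspace (emb r)) := by
  have hmonic := s41asPoly_monic T c
  have hsplit := s41as_card_roots emb hemb (s41asPoly T c) hmonic
    (fun z hz => hint _ z hmonic hz)
  rw [LinearMap.finrank_maxGenEigenspace_eq, s41as_charpoly_comb,
    s41as_rootMult_red res _ hmonic hsplit Z hZ μ₀]
  refine Finset.sum_congr rfl fun r _ => ?_
  rw [LinearMap.finrank_maxGenEigenspace_eq, s41as_charpoly_comb,
    ← Polynomial.eq_rootMultiplicity_map hemb]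

end CP

/-! ### the lifting theorem -/

section Main

open TensorProduct

theorem s41as_intertwine_pow {K : Type*} [Field K] {M N : Type*} [AddCommGroup M] [Module K M]
    [AddCommGroup N] [Module K N] (α : M →ₗ[K] N) (f : Module.End K M) (g : Module.End K N)
    (h : ∀ x, α (f x) = g (α x)) (μ : K) (k : ℕ) (x : M) :
    α (((f - μ • (1 : Module.End K M)) ^ k) x) = ((g - μ • (1 : Module.End K N)) ^ k) (α x) := by
  induction k generalizing x with
  | zero => simp
  | succ k ih =>
    rw [pow_succ, pow_succ, Module.End.mul_apply, Module.End.mul_apply, ih]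
    simp [h]

/-- **Lifting theorem.**  `R` a domain with a surjection `res` onto an algebraically closed field
`FF` and an embedding `emb` into an algebraically closed field `Ω` in which it is integrally closed.
`X`, `Y` finite free `ℤ`-modules with commuting families `TX`, `TY`, and `αt : Y → X` equivariant.
If the simultaneous generalised `θ`-eigenspace of `FF ⊗ Y` is bigger than that of `FF ⊗ X`, then
`ker (αt ⊗ Ω)` contains a simultaneous eigenvector whose eigenvalues lie in `R` and reduce to `θ`. -/
theorem s41as_lift_abstract {R FF Ω : Type*} [CommRing R] [Field FF] [Field Ω] [IsAlgClosed FF]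
    [IsAlgClosed Ω] (res : R →+* FF) (hres : Function.Surjective res) (emb : R →+* Ω)
    (hemb : Function.Injective emb)
    (hint : ∀ (P : R[X]) (z : Ω), P.Monic → (P.map emb).IsRoot z → z ∈ emb.range)
    {ι : Type*} {X Y : Type*} [AddCommGroup X] [Module.Free ℤ X] [Module.Finite ℤ X]
    [AddCommGroup Y] [Module.Free ℤ Y] [Module.Finite ℤ Y]
    (TX : ι → Module.End ℤ X) (TY : ι → Module.End ℤ Y)
    (hcX : ∀ i j, Commute (TX i) (TX j)) (hcY : ∀ i j, Commute (TY i) (TY j))
    (αt : Y →ₗ[ℤ] X) (hαt : ∀ i y, αt (TY i y) = TX i (αt y)) (θ : ι → FF)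
    (hdim : finrank FF ↥(⨅ i, Module.End.maxGenEigenspace ((TX i).baseChange FF) (θ i)) <
      finrank FF ↥(⨅ i, Module.End.maxGenEigenspace ((TY i).baseChange FF) (θ i))) :
    ∃ (lam : ι → R) (v : Ω ⊗[ℤ] Y), v ≠ 0 ∧ αt.baseChange Ω v = 0 ∧
      (∀ i, (TY i).baseChange Ω v = emb (lam i) • v) ∧ ∀ i, res (lam i) = θ i := by
  classical
  have : IsDomain R := hemb.isDomain emb
  set fX : ι → Module.End FF (FF ⊗[ℤ] X) := fun i => (TX i).baseChange FF with hfX
  set fY : ι → Module.End FF (FF ⊗[ℤ] Y) := fun i => (TY i).baseChange FF with hfY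
  set gX : ι → Module.End Ω (Ω ⊗[ℤ] X) := fun i => (TX i).baseChange Ω with hgX
  set gY : ι → Module.End Ω (Ω ⊗[ℤ] Y) := fun i => (TY i).baseChange Ω with hgY
  have hcfX : ∀ i j, Commute (fX i) (fX j) := s41as_baseChange_commute TX hcX
  have hcfY : ∀ i j, Commute (fY i) (fY j) := s41as_baseChange_commute TY hcY
  have hcgY : ∀ i j, Commute (gY i) (gY j) := s41as_baseChange_commute TY hcY
  -- the finite sets of systems to be separated from `θ`
  set S1 : Set (ι → FF) := s41asSys fX with hS1
  set S2 : Set (ι → FF) := (fun lam : ι → R => fun i => res (lam i)) ''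
    ((fun lam : ι → R => fun i => emb (lam i)) ⁻¹' s41asSys gY) with hS2
  have hS1fin : S1.Finite := s41as_sys_finite fX hcfX
  have hS2fin : S2.Finite := by
    refine Set.Finite.image _ (Set.Finite.preimage ?_ (s41as_sys_finite gY hcgY))
    intro a _ b _ hab
    funext i
    exact hemb (congrFun hab i)
  obtain ⟨cbar, hsep⟩ := s41as_exists_sep (S1 ∪ S2) (hS1fin.union hS2fin) θ
  obtain ⟨c, hc⟩ := Finsupp.mapRange_surjective res (map_zero res) hres cbar
  set μ₀ : FF := s41asVal cbar θ with hμ₀
  set Z : Finset R := ((s41asPoly TX c).roots + (s41asPoly TY c).roots).toFinset with hZ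
  have hZX : ∀ r ∈ (s41asPoly TX c).roots, r ∈ Z := fun r hr =>
    Multiset.mem_toFinset.2 (Multiset.mem_add.2 (Or.inl hr))
  have hZY : ∀ r ∈ (s41asPoly TY c).roots, r ∈ Z := fun r hr =>
    Multiset.mem_toFinset.2 (Multiset.mem_add.2 (Or.inr hr))
  have hredX := s41as_finrank_red TX res emb hemb hint c μ₀ Z hZX
  have hredY := s41as_finrank_red TY res emb hemb hint c μ₀ Z hZY
  rw [hc] at hredX hredY
  have h1 : finrank FF ↥(⨅ i, (fY i).maxGenEigenspace (θ i)) ≤
      finrank FF ↥((s41asComb fY cbar).maxGenEigenspace μ₀) :=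
    Submodule.finrank_mono (s41as_le_genEig fY hcfY cbar θ)
  have h2 : finrank FF ↥((s41asComb fX cbar).maxGenEigenspace μ₀) ≤
      finrank FF ↥(⨅ i, (fX i).maxGenEigenspace (θ i)) :=
    Submodule.finrank_mono (s41as_genEig_le fX hcfX cbar θ
      (fun χ hχ => hsep χ (Or.inl hχ)))
  have hlt : ∑ r ∈ Z.filter (fun r => res r = μ₀),
        finrank Ω ↥((s41asComb gX (c.mapRange emb (map_zero emb))).maxGenEigenspace (emb r)) <
      ∑ r ∈ Z.filter (fun r => res r = μ₀),
        finrank Ω ↥((s41asComb gY (c.mapRange emb (map_zero emb))).maxGenEigenspace (emb r)) := by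
    rw [← hredX, ← hredY]
    exact lt_of_le_of_lt h2 (lt_of_lt_of_le hdim h1)
  obtain ⟨r, hrZ, hr⟩ := Finset.exists_lt_of_sum_lt hlt
  have hresr : res r = μ₀ := (Finset.mem_filter.1 hrZ).2
  set tX := s41asComb gX (c.mapRange emb (map_zero emb)) with htX
  set tY := s41asComb gY (c.mapRange emb (map_zero emb)) with htY
  set αΩ : Ω ⊗[ℤ] Y →ₗ[Ω] Ω ⊗[ℤ] X := αt.baseChange Ω with hαΩ
  -- equivariance of `αΩ`
  have heq : ∀ i y, αΩ (gY i y) = gX i (αΩ y) := by
    intro i y
    have h : αt ∘ₗ TY i = TX i ∘ₗ αt := LinearMap.ext (hαt i)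
    have := congrArg (fun g : Y →ₗ[ℤ] X => g.baseChange Ω) h
    simp only [LinearMap.baseChange_comp] at this
    exact congrArg (fun g : Ω ⊗[ℤ] Y →ₗ[Ω] Ω ⊗[ℤ] X => g y) this
  have heqt : ∀ y, αΩ (tY y) = tX (αΩ y) := by
    intro y
    rw [htY, htX, s41asComb_apply, s41asComb_apply, map_finsuppSum]
    refine Finsupp.sum_congr fun i _ => ?_
    rw [map_smul, heq]
  -- a nonzero element of the kernel in the generalised eigenspace
  have hex : ∃ y ∈ tY.maxGenEigenspace (emb r), y ≠ 0 ∧ αΩ y = 0 := by
    by_contra hno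
    push Not at hno
    have hmaps : ∀ y ∈ tY.maxGenEigenspace (emb r), αΩ y ∈ tX.maxGenEigenspace (emb r) := by
      intro y hy
      obtain ⟨k, hk⟩ := (Module.End.mem_maxGenEigenspace _ _ _).1 hy
      rw [Module.End.mem_maxGenEigenspace]
      exact ⟨k, by rw [← s41as_intertwine_pow αΩ tY tX heqt, hk, map_zero]⟩
    let α' : tY.maxGenEigenspace (emb r) →ₗ[Ω] tX.maxGenEigenspace (emb r) :=
      (αΩ.domRestrict _).codRestrict _ (fun y => hmaps y y.2)
    have hinj : Function.Injective α' := by
      rw [← LinearMap.ker_eq_bot, LinearMap.ker_eq_bot']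
      intro y hy
      have hy' : αΩ (y : Ω ⊗[ℤ] Y) = 0 := congrArg Subtype.val hy
      by_contra hy0
      exact hno y y.2 (fun h => hy0 (Subtype.ext h)) hy'
    exact absurd (LinearMap.finrank_le_finrank_of_injective hinj) (not_le.2 hr)
  obtain ⟨y, hyW, hy0, hyk⟩ := hex
  set W : Submodule Ω (Ω ⊗[ℤ] Y) := LinearMap.ker αΩ ⊓ tY.maxGenEigenspace (emb r) with hW
  have hW0 : W ≠ ⊥ := fun h => hy0 (by
    have : y ∈ W := ⟨LinearMap.mem_ker.2 hyk, hyW⟩
    simpa [h] using this)
  have hWst : ∀ i, ∀ x ∈ W, gY i x ∈ W := by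
    intro i x hx
    refine ⟨LinearMap.mem_ker.2 ?_, ?_⟩
    · rw [heq, LinearMap.mem_ker.1 hx.1, map_zero]
    · exact Module.End.mapsTo_maxGenEigenspace_of_comm
        (s41asComb_commute gY hcgY _ i) (emb r) hx.2
  obtain ⟨χ, v, hvW, hv0, hev⟩ := s41as_exists_eigen gY hcgY _ W rfl hW0 hWst
  -- the eigenvalues are integral
  have hχ : ∀ i, χ i ∈ emb.range := by
    intro i
    have hroot : ((gY i).charpoly).IsRoot (χ i) :=
      (Module.End.hasEigenvalue_iff_isRoot_charpoly _ _).1
        (Module.End.hasEigenvalue_of_hasEigenvector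
          ⟨Module.End.mem_eigenspace_iff.2 (hev i), hv0⟩)
    refine hint (((TY i).charpoly).map (Int.castRingHom R)) (χ i)
      ((LinearMap.charpoly_monic _).map _) ?_
    rw [Polynomial.map_map]
    have : emb.comp (Int.castRingHom R) = algebraMap ℤ Ω := RingHom.ext_int _ _
    rw [this, ← LinearMap.charpoly_baseChange]
    exact hroot
  choose lam hlam using hχ
  refine ⟨lam, v, hv0, LinearMap.mem_ker.1 hvW.1, fun i => by rw [hlam i]; exact hev i, ?_⟩
  by_contra hne
  have hne' : (fun i => res (lam i)) ≠ θ := fun h => hne fun i => congrFun h i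
  have hχeq : (fun i => emb (lam i)) = χ := funext hlam
  have hmem2 : (fun i => res (lam i)) ∈ S2 :=
    ⟨lam, by show (fun i => emb (lam i)) ∈ s41asSys gY; rw [hχeq]; exact ⟨v, hv0, hev⟩, rfl⟩
  apply hsep _ (Or.inr hmem2) hne'
  have hval : s41asVal (c.mapRange emb (map_zero emb)) χ = emb r :=
    s41as_eigenvalue_eq tY hv0 (s41asComb_eigen gY _ hev) hvW.2
  rw [← hχeq, s41asVal_mapRange] at hval
  rw [← hc, s41asVal_mapRange, hemb hval, hresr, hμ₀, ← hc]

end Main

end Fermat.Agent.S41
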