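import Mathlib
import Fermat.Agent.S41.ASM.LiftAbs

/-!
# S41, package ASM : reduction of eigensystems, and the specialisation to `ℤ̄ ⊂ ℂ` (file tag `s41as_`)

* `s41as_reduce_abstract` : a system of eigenvalues occurring in `Ω ⊗ V` (values in `R`) occurs,
  reduced, in `FF ⊗ V`;
* `s41as_inj_of_no_eigen` : injectivity on the simultaneous generalised eigenspace from the absence
  of simultaneous eigenvectors in the kernel;
* `s41as_isAlgClosed_quotient`, `s41as_lift_zbar`, `s41as_reduce` : `R = integralClosure ℤ ℂ`, `Ω = ℂ`,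
  `FF = R ⧸ 𝔪`;
* `s41as_main` : the abstract level raising theorem (mod `p` core + lifting).
-/

set_option autoImplicit false

namespace Fermat.Agent.S41

open Module Polynomial TensorProduct

/-- **Reduction of eigensystems.**  A system of eigenvalues `emb ∘ lam` occurring in `Ω ⊗ V` occurs
reduced (`res ∘ lam`) in `FF ⊗ V`. -/
theorem s41as_reduce_abstract {R FF Ω : Type*} [CommRing R] [Field FF] [Field Ω] [IsAlgClosed FF]
    [IsAlgClosed Ω] (res : R →+* FF) (hres : Function.Surjective res) (emb : R →+* Ω)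
    (hemb : Function.Injective emb)
    (hint : ∀ (P : R[X]) (z : Ω), P.Monic → (P.map emb).IsRoot z → z ∈ emb.range)
    {ι : Type*} {V : Type*} [AddCommGroup V] [Module.Free ℤ V] [Module.Finite ℤ V]
    (T : ι → Module.End ℤ V) (hcT : ∀ i j, Commute (T i) (T j)) (lam : ι → R)
    (v : Ω ⊗[ℤ] V) (hv0 : v ≠ 0) (hv : ∀ i, (T i).baseChange Ω v = emb (lam i) • v) :
    ∃ w : FF ⊗[ℤ] V, w ≠ 0 ∧ ∀ i, (T i).baseChange FF w = res (lam i) • w := by
  classical
  have : IsDomain R := hemb.isDomain emb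
  set f : ι → Module.End FF (FF ⊗[ℤ] V) := fun i => (T i).baseChange FF with hf
  set g : ι → Module.End Ω (Ω ⊗[ℤ] V) := fun i => (T i).baseChange Ω with hg
  have hcf : ∀ i j, Commute (f i) (f j) := s41as_baseChange_commute T hcT
  set θ : ι → FF := fun i => res (lam i) with hθ
  obtain ⟨cbar, hsep⟩ := s41as_exists_sep (s41asSys f) (s41as_sys_finite f hcf) θ
  obtain ⟨c, hc⟩ := Finsupp.mapRange_surjective res (map_zero res) hres cbar
  set r : R := c.sum fun i a => a * lam i with hr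
  have hμ₀ : s41asVal cbar θ = res r := by rw [← hc, hθ, s41asVal_mapRange]
  -- `emb r` is an eigenvalue of the combination in characteristic zero
  have hvt : s41asComb g (c.mapRange emb (map_zero emb)) v = emb r • v := by
    rw [s41asComb_eigen g _ hv, s41asVal_mapRange]
  have hvmem : v ∈ (s41asComb g (c.mapRange emb (map_zero emb))).maxGenEigenspace (emb r) :=
    Module.End.eigenspace_le_maxGenEigenspace (Module.End.mem_eigenspace_iff.2 hvt)
  have hroot : r ∈ (s41asPoly T c).roots := by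
    rw [Polynomial.mem_roots (s41asPoly_monic T c).ne_zero]
    have h1 : ((s41asComb g (c.mapRange emb (map_zero emb))).charpoly).IsRoot (emb r) :=
      (Module.End.hasEigenvalue_iff_isRoot_charpoly _ _).1
        (Module.End.hasEigenvalue_of_hasEigenvector
          ⟨Module.End.mem_eigenspace_iff.2 hvt, hv0⟩)
    rw [s41as_charpoly_comb, Polynomial.IsRoot.def, Polynomial.eval_map,
      Polynomial.eval₂_hom] at h1
    exact hemb (by rw [h1, map_zero])
  have hred := s41as_finrank_red T res emb hemb hint c (res r) (s41asPoly T c).roots.toFinset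
    (fun r hr => Multiset.mem_toFinset.2 hr)
  rw [hc] at hred
  have hpos : 0 < finrank FF ↥((s41asComb f cbar).maxGenEigenspace (res r)) := by
    rw [hred]
    refine lt_of_lt_of_le ?_ (Finset.single_le_sum (f := fun r' => finrank Ω
      ↥((s41asComb g (c.mapRange emb (map_zero emb))).maxGenEigenspace (emb r')))
      (fun _ _ => Nat.zero_le _)
      (Finset.mem_filter.2 ⟨Multiset.mem_toFinset.2 hroot, rfl⟩))
    rw [Module.finrank_pos_iff, Submodule.nontrivial_iff_ne_bot]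
    exact fun h => hv0 (by simpa [h] using hvmem)
  -- the generalised eigenspace of the reduced combination is the simultaneous one
  have hle := s41as_genEig_le f hcf cbar θ hsep
  rw [hμ₀] at hle
  set G : Submodule FF (FF ⊗[ℤ] V) := ⨅ i, (f i).maxGenEigenspace (θ i) with hG
  have hG0 : G ≠ ⊥ := by
    intro h
    rw [h] at hle
    have hbot := le_bot_iff.1 hle
    rw [hbot, finrank_bot] at hpos
    exact lt_irrefl _ hpos
  have hGst : ∀ i, ∀ x ∈ G, f i x ∈ G := by
    intro j x hx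
    rw [hG, Submodule.mem_iInf] at hx ⊢
    exact fun i => Module.End.mapsTo_maxGenEigenspace_of_comm (hcf i j) (θ i) (hx i)
  obtain ⟨χ, w, hwG, hw0, hew⟩ := s41as_exists_eigen f hcf _ G rfl hG0 hGst
  refine ⟨w, hw0, fun i => ?_⟩
  have : χ i = θ i := s41as_eigenvalue_eq (f i) hw0 (hew i) ((Submodule.mem_iInf _).1 hwG i)
  rw [hew i, this]

/-- injectivity on the simultaneous generalised eigenspace, from the absence of simultaneous
eigenvectors with system `θ` in the kernel. -/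
theorem s41as_inj_of_no_eigen {K : Type*} [Field K] [IsAlgClosed K] {ι : Type*} {M N : Type*}
    [AddCommGroup M] [Module K M] [FiniteDimensional K M] [AddCommGroup N] [Module K N]
    (f : ι → Module.End K M) (g : ι → Module.End K N) (hc : ∀ i j, Commute (f i) (f j))
    (α : M →ₗ[K] N) (hα : ∀ i x, α (f i x) = g i (α x)) (θ : ι → K)
    (hno : ∀ x : M, x ≠ 0 → α x = 0 → ¬ ∀ i, f i x = θ i • x) :
    ∀ x ∈ ⨅ i, (f i).maxGenEigenspace (θ i), α x = 0 → x = 0 := by
  intro x hx hαx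
  by_contra hx0
  set W : Submodule K M := LinearMap.ker α ⊓ ⨅ i, (f i).maxGenEigenspace (θ i) with hW
  have hW0 : W ≠ ⊥ := fun h => hx0 (by
    have : x ∈ W := ⟨LinearMap.mem_ker.2 hαx, hx⟩
    simpa [h] using this)
  have hWst : ∀ i, ∀ y ∈ W, f i y ∈ W := by
    intro j y hy
    obtain ⟨hy1, hy2⟩ := Submodule.mem_inf.1 hy
    refine Submodule.mem_inf.2 ⟨LinearMap.mem_ker.2 (by rw [hα, LinearMap.mem_ker.1 hy1, map_zero]), ?_⟩
    rw [Submodule.mem_iInf] at hy2 ⊢
    exact fun i => Module.End.mapsTo_maxGenEigenspace_of_comm (hc i j) (θ i) (hy2 i)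
  obtain ⟨χ, w, hwW, hw0, hew⟩ := s41as_exists_eigen f hc _ W rfl hW0 hWst
  refine hno w hw0 (LinearMap.mem_ker.1 hwW.1) fun i => ?_
  have : χ i = θ i := s41as_eigenvalue_eq (f i) hw0 (hew i) ((Submodule.mem_iInf _).1 hwW.2 i)
  rw [hew i, this]

/-- **Abstract level raising.**  `X`, `Y` finite free `ℤ`-modules with commuting families,
`α : X → Y`, `αt : Y → X` equivariant; mod `𝔪` : forms `BX`, `BY` on `FF ⊗ X`, `FF ⊗ Y` with `BY`
right-separating, the `TY i` self-adjoint, `αt` adjoint to `α`; (IHARA) `ker (α ⊗ FF)` contains no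
simultaneous eigenvector with system `θ`; (SING) some simultaneous eigenvector with system `θ` in
`FF ⊗ X` is killed by `αt ∘ α`.  Then `ker (αt ⊗ Ω)` contains a simultaneous eigenvector with
eigenvalues in `R` reducing to `θ`. -/
theorem s41as_main {R FF Ω : Type*} [CommRing R] [Field FF] [Field Ω] [IsAlgClosed FF]
    [IsAlgClosed Ω] (res : R →+* FF) (hres : Function.Surjective res) (emb : R →+* Ω)
    (hemb : Function.Injective emb)
    (hint : ∀ (P : R[X]) (z : Ω), P.Monic → (P.map emb).IsRoot z → z ∈ emb.range)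
    {ι : Type*} {X Y : Type*} [AddCommGroup X] [Module.Free ℤ X] [Module.Finite ℤ X]
    [AddCommGroup Y] [Module.Free ℤ Y] [Module.Finite ℤ Y]
    (TX : ι → Module.End ℤ X) (TY : ι → Module.End ℤ Y)
    (hcX : ∀ i j, Commute (TX i) (TX j)) (hcY : ∀ i j, Commute (TY i) (TY j))
    (α : X →ₗ[ℤ] Y) (αt : Y →ₗ[ℤ] X) (hα : ∀ i x, α (TX i x) = TY i (α x))
    (hαt : ∀ i y, αt (TY i y) = TX i (αt y)) (θ : ι → FF)
    (BX : FF ⊗[ℤ] X →ₗ[FF] FF ⊗[ℤ] X →ₗ[FF] FF) (BY : FF ⊗[ℤ] Y →ₗ[FF] FF ⊗[ℤ] Y →ₗ[FF] FF)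
    (hBY : ∀ y, (∀ y', BY y' y = 0) → y = 0)
    (hsaY : ∀ i y y', BY ((TY i).baseChange FF y) y' = BY y ((TY i).baseChange FF y'))
    (hadj : ∀ x y, BY (α.baseChange FF x) y = BX x (αt.baseChange FF y))
    (hno : ∀ x : FF ⊗[ℤ] X, x ≠ 0 → α.baseChange FF x = 0 →
      ¬ ∀ i, (TX i).baseChange FF x = θ i • x)
    (hsing : ∃ x : FF ⊗[ℤ] X, x ≠ 0 ∧ (∀ i, (TX i).baseChange FF x = θ i • x) ∧
      αt.baseChange FF (α.baseChange FF x) = 0) :
    ∃ (lam : ι → R) (v : Ω ⊗[ℤ] Y), v ≠ 0 ∧ αt.baseChange Ω v = 0 ∧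
      (∀ i, (TY i).baseChange Ω v = emb (lam i) • v) ∧ ∀ i, res (lam i) = θ i := by
  refine s41as_lift_abstract res hres emb hemb hint TX TY hcX hcY αt hαt θ ?_
  have hαeq : ∀ i x, α.baseChange FF ((TX i).baseChange FF x) =
      (TY i).baseChange FF (α.baseChange FF x) := by
    intro i x
    have h : α ∘ₗ TX i = TY i ∘ₗ α := LinearMap.ext (hα i)
    have := congrArg (fun g : X →ₗ[ℤ] Y => g.baseChange FF) h
    simp only [LinearMap.baseChange_comp] at this
    exact congrArg (fun g : FF ⊗[ℤ] X →ₗ[FF] FF ⊗[ℤ] Y => g x) this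
  refine s41as_core (fun i => (TX i).baseChange FF) (fun i => (TY i).baseChange FF)
    (s41as_baseChange_commute TY hcY) BX BY hBY hsaY (α.baseChange FF) (αt.baseChange FF) hadj
    hαeq θ ?_ ?_
  · exact s41as_inj_of_no_eigen (fun i => (TX i).baseChange FF) (fun i => (TY i).baseChange FF)
      (s41as_baseChange_commute TX hcX) (α.baseChange FF) hαeq θ hno
  · obtain ⟨x, hx0, hx, hxM⟩ := hsing
    refine ⟨x, ?_, hx0, hxM⟩
    rw [Submodule.mem_iInf]
    exact fun i => Module.End.eigenspace_le_maxGenEigenspace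
      (Module.End.mem_eigenspace_iff.2 (hx i))

/-! ### the case `R = integralClosure ℤ ℂ` -/

section Zbar

/-- roots in `ℂ` of monic polynomials over `ℤ̄` are in `ℤ̄`. -/
theorem s41as_hint (P : (integralClosure ℤ ℂ)[X]) (z : ℂ) (hP : P.Monic)
    (hz : (P.map (algebraMap (integralClosure ℤ ℂ) ℂ)).IsRoot z) :
    z ∈ (algebraMap (integralClosure ℤ ℂ) ℂ).range := by
  have h1 : IsIntegral (integralClosure ℤ ℂ) z :=
    ⟨P, hP, by rwa [Polynomial.IsRoot.def, Polynomial.eval_map] at hz⟩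
  have h2 : IsIntegral ℤ z := isIntegral_trans z h1
  exact ⟨⟨z, h2⟩, rfl⟩

variable (𝔪 : Ideal (integralClosure ℤ ℂ)) [𝔪.IsMaximal]

attribute [local instance] Ideal.Quotient.field

/-- the residue field of `ℤ̄` at a maximal ideal is algebraically closed. -/
theorem s41as_isAlgClosed_quotient : IsAlgClosed (integralClosure ℤ ℂ ⧸ 𝔪) := by
  refine IsAlgClosed.of_exists_root _ fun p hp hirr => ?_
  obtain ⟨P, hPmap, hPdeg, hPmonic⟩ := Polynomial.lifts_and_degree_eq_and_monic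
    ((Polynomial.mem_lifts p).2 (Polynomial.map_surjective _ Ideal.Quotient.mk_surjective p)) hp
  have hdeg : (P.map (algebraMap (integralClosure ℤ ℂ) ℂ)).degree ≠ 0 := by
    rw [Polynomial.degree_map_eq_of_injective (FaithfulSMul.algebraMap_injective _ _), hPdeg]
    exact (Polynomial.degree_pos_of_irreducible hirr).ne'
  obtain ⟨z, hz⟩ := IsAlgClosed.exists_root _ hdeg
  obtain ⟨r, rfl⟩ := s41as_hint P z hPmonic hz
  refine ⟨Ideal.Quotient.mk 𝔪 r, ?_⟩
  rw [Polynomial.IsRoot.def, Polynomial.eval_map, Polynomial.eval₂_hom] at hz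
  have hz' : Polynomial.eval r P = 0 :=
    FaithfulSMul.algebraMap_injective (integralClosure ℤ ℂ) ℂ (by rw [hz, map_zero])
  rw [← hPmap, Polynomial.eval_map, Polynomial.eval₂_hom, hz', map_zero]

/-- the lifting theorem for `ℤ̄ ⊂ ℂ` and `FF = ℤ̄ ⧸ 𝔪`. -/
theorem s41as_lift_zbar {ι : Type*} {X Y : Type*} [AddCommGroup X] [Module.Free ℤ X]
    [Module.Finite ℤ X] [AddCommGroup Y] [Module.Free ℤ Y] [Module.Finite ℤ Y]
    (TX : ι → Module.End ℤ X) (TY : ι → Module.End ℤ Y)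
    (hcX : ∀ i j, Commute (TX i) (TX j)) (hcY : ∀ i j, Commute (TY i) (TY j))
    (αt : Y →ₗ[ℤ] X) (hαt : ∀ i y, αt (TY i y) = TX i (αt y))
    (θ : ι → integralClosure ℤ ℂ ⧸ 𝔪)
    (hdim : finrank (integralClosure ℤ ℂ ⧸ 𝔪) ↥(⨅ i, Module.End.maxGenEigenspace
        ((TX i).baseChange (integralClosure ℤ ℂ ⧸ 𝔪)) (θ i)) <
      finrank (integralClosure ℤ ℂ ⧸ 𝔪) ↥(⨅ i, Module.End.maxGenEigenspace
        ((TY i).baseChange (integralClosure ℤ ℂ ⧸ 𝔪)) (θ i))) :
    ∃ (lam : ι → integralClosure ℤ ℂ) (v : ℂ ⊗[ℤ] Y), v ≠ 0 ∧ αt.baseChange ℂ v = 0 ∧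
      (∀ i, (TY i).baseChange ℂ v = (lam i : ℂ) • v) ∧
      ∀ i, Ideal.Quotient.mk 𝔪 (lam i) = θ i := by
  have := s41as_isAlgClosed_quotient 𝔪
  exact s41as_lift_abstract (Ideal.Quotient.mk 𝔪) Ideal.Quotient.mk_surjective
    (algebraMap (integralClosure ℤ ℂ) ℂ) (FaithfulSMul.algebraMap_injective _ _) s41as_hint
    TX TY hcX hcY αt hαt θ hdim

set_option synthInstance.maxHeartbeats 400000 in
/-- reduction of eigensystems for `ℤ̄ ⊂ ℂ` and `FF = ℤ̄ ⧸ 𝔪`. -/
theorem s41as_reduce {ι : Type*} {V : Type*} [AddCommGroup V] [Module.Free ℤ V]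
    [Module.Finite ℤ V] (T : ι → Module.End ℤ V) (hcT : ∀ i j, Commute (T i) (T j))
    (lam : ι → integralClosure ℤ ℂ) (v : ℂ ⊗[ℤ] V) (hv0 : v ≠ 0)
    (hv : ∀ i, (T i).baseChange ℂ v = (lam i : ℂ) • v) :
    ∃ w : (integralClosure ℤ ℂ ⧸ 𝔪) ⊗[ℤ] V, w ≠ 0 ∧
      ∀ i, (T i).baseChange (integralClosure ℤ ℂ ⧸ 𝔪) w = Ideal.Quotient.mk 𝔪 (lam i) • w := by
  have := s41as_isAlgClosed_quotient 𝔪
  exact s41as_reduce_abstract (Ideal.Quotient.mk 𝔪) Ideal.Quotient.mk_surjective
    (algebraMap (integralClosure ℤ ℂ) ℂ) (FaithfulSMul.algebraMap_injective _ _) s41as_hint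
    T hcT lam v hv0 hv

end Zbar

end Fermat.Agent.S41
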