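import Mathlib
import Fermat.Agent.S41.ASM.Main

/-!
# S41, package ASM : the bridge between lattices mod `p` and `FF ⊗[ℤ] -` (file tag `s41as_`)

`V` a free `ℤ`-module, `K` a field of characteristic `p`.

* `s41as_one_tmul_eq_zero_iff` : `1 ⊗ x = 0` in `K ⊗[ℤ] V` iff `x ∈ pV`;
* `s41as_exists_one_tmul` : every element of `ZMod p ⊗[ℤ] V` is `1 ⊗ x`;
* `s41asPush φ : FF ⊗[ℤ] V →ₗ[ℤ] ZMod p ⊗[ℤ] V` for a `ZMod p`-linear functional `φ` on `FF`,
  natural in `V`, and `s41as_exists_push_ne_zero` : they separate the points.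
-/

set_option autoImplicit false

namespace Fermat.Agent.S41

open Module TensorProduct

section OneTmul

variable (p : ℕ) [Fact p.Prime] (K : Type*) [Field K] [CharP K p]
  {V : Type*} [AddCommGroup V] [Module.Free ℤ V]

omit [Fact p.Prime] [Module.Free ℤ V] in
theorem s41as_exists_smul_of_dvd_repr {J : Type*} (e : Basis J ℤ V) (x : V)
    (h : ∀ j, (p : ℤ) ∣ e.repr x j) : ∃ z, x = (p : ℤ) • z := by
  refine ⟨e.repr.symm (Finsupp.mapRange (fun n : ℤ => n / (p : ℤ)) (by simp) (e.repr x)), ?_⟩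
  apply e.repr.injective
  ext j
  rw [map_smul, LinearEquiv.apply_symm_apply, Finsupp.smul_apply, Finsupp.mapRange_apply,
    smul_eq_mul, Int.mul_ediv_cancel' (h j)]

omit [Fact p.Prime] in
theorem s41as_one_tmul_eq_zero_iff (x : V) :
    (1 : K) ⊗ₜ[ℤ] x = 0 ↔ ∃ z, x = (p : ℤ) • z := by
  constructor
  · intro h
    set e := Module.Free.chooseBasis ℤ V
    refine s41as_exists_smul_of_dvd_repr p e x fun j => ?_
    have h1 := congrArg (fun f => (Algebra.TensorProduct.basis K e).repr f j) h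
    simp only [Algebra.TensorProduct.basis_repr_tmul, one_smul, Finsupp.mapRange_apply,
      map_zero, Finsupp.coe_zero, Pi.zero_apply, algebraMap_int_eq, eq_intCast] at h1
    exact (CharP.intCast_eq_zero_iff K p _).1 h1
  · rintro ⟨z, rfl⟩
    rw [TensorProduct.tmul_smul, TensorProduct.smul_tmul']
    have : ((p : ℤ) • (1 : K)) = 0 := by
      rw [zsmul_eq_mul, mul_one, Int.cast_natCast, CharP.cast_eq_zero]
    rw [this, TensorProduct.zero_tmul]

omit [Module.Free ℤ V] in
theorem s41as_exists_one_tmul (w : ZMod p ⊗[ℤ] V) : ∃ x : V, (1 : ZMod p) ⊗ₜ[ℤ] x = w := by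
  induction w using TensorProduct.induction_on with
  | zero => exact ⟨0, by simp⟩
  | tmul a v =>
    refine ⟨(a.val : ℤ) • v, ?_⟩
    rw [TensorProduct.tmul_smul, TensorProduct.smul_tmul']
    congr 1
    rw [zsmul_eq_mul, mul_one, Int.cast_natCast, ZMod.natCast_zmod_val]
  | add w₁ w₂ h₁ h₂ =>
    obtain ⟨x₁, rfl⟩ := h₁
    obtain ⟨x₂, rfl⟩ := h₂
    exact ⟨x₁ + x₂, TensorProduct.tmul_add _ _ _⟩

end OneTmul

section Push

variable (p : ℕ) [Fact p.Prime] {FF : Type*} [Field FF] [Algebra (ZMod p) FF]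

/-- push an element of `FF ⊗[ℤ] V` to `ZMod p ⊗[ℤ] V` along a `ZMod p`-linear functional. -/
noncomputable def s41asPush (φ : FF →ₗ[ZMod p] ZMod p) (V : Type*) [AddCommGroup V] :
    FF ⊗[ℤ] V →ₗ[ℤ] ZMod p ⊗[ℤ] V :=
  TensorProduct.map (φ.toAddMonoidHom.toIntLinearMap) LinearMap.id

variable {p}

@[simp]
theorem s41asPush_tmul (φ : FF →ₗ[ZMod p] ZMod p) {V : Type*} [AddCommGroup V] (a : FF) (v : V) :
    s41asPush p φ V (a ⊗ₜ v) = φ a ⊗ₜ v := rfl

/-- naturality of `s41asPush`. -/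
theorem s41asPush_baseChange (φ : FF →ₗ[ZMod p] ZMod p) {V V' : Type*} [AddCommGroup V]
    [AddCommGroup V'] (g : V →ₗ[ℤ] V') (w : FF ⊗[ℤ] V) :
    s41asPush p φ V' (g.baseChange FF w) = g.baseChange (ZMod p) (s41asPush p φ V w) := by
  induction w using TensorProduct.induction_on with
  | zero => simp
  | tmul a v => simp
  | add w₁ w₂ h₁ h₂ => simp only [map_add, h₁, h₂]

/-- `s41asPush` is semilinear for scalars coming from `ZMod p`. -/
theorem s41asPush_smul (φ : FF →ₗ[ZMod p] ZMod p) {V : Type*} [AddCommGroup V] (c : ZMod p)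
    (w : FF ⊗[ℤ] V) :
    s41asPush p φ V (algebraMap (ZMod p) FF c • w) = c • s41asPush p φ V w := by
  induction w using TensorProduct.induction_on with
  | zero => simp
  | tmul a v =>
    rw [TensorProduct.smul_tmul', s41asPush_tmul, s41asPush_tmul, TensorProduct.smul_tmul',
      smul_eq_mul, ← Algebra.smul_def, map_smul]
  | add w₁ w₂ h₁ h₂ => simp only [smul_add, map_add, h₁, h₂]

/-- the functionals separate the points of `FF ⊗[ℤ] V`. -/
theorem s41as_exists_push_ne_zero {V : Type*} [AddCommGroup V] [Module.Free ℤ V]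
    (w : FF ⊗[ℤ] V) (hw : w ≠ 0) : ∃ φ : FF →ₗ[ZMod p] ZMod p, s41asPush p φ V w ≠ 0 := by
  set e := Module.Free.chooseBasis ℤ V
  have hcoord : ∀ (φ : FF →ₗ[ZMod p] ZMod p) (w : FF ⊗[ℤ] V) j,
      (Algebra.TensorProduct.basis (ZMod p) e).repr (s41asPush p φ V w) j =
        φ ((Algebra.TensorProduct.basis FF e).repr w j) := by
    intro φ w j
    induction w using TensorProduct.induction_on with
    | zero => simp
    | tmul a v =>
      simp only [s41asPush_tmul, Algebra.TensorProduct.basis_repr_tmul, Finsupp.smul_apply,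
        Finsupp.mapRange_apply, algebraMap_int_eq, eq_intCast, smul_eq_mul]
      rw [mul_comm a, ← zsmul_eq_mul, map_zsmul, zsmul_eq_mul, mul_comm]
    | add w₁ w₂ h₁ h₂ => simp only [map_add, Finsupp.add_apply, h₁, h₂]
  obtain ⟨j, hj⟩ : ∃ j, (Algebra.TensorProduct.basis FF e).repr w j ≠ 0 := by
    by_contra hno
    push Not at hno
    apply hw
    apply (Algebra.TensorProduct.basis FF e).repr.injective
    ext j
    simpa using hno j
  obtain ⟨φ, hφ⟩ : ∃ φ : FF →ₗ[ZMod p] ZMod p,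
      φ ((Algebra.TensorProduct.basis FF e).repr w j) ≠ 0 := by
    by_contra hno
    push Not at hno
    exact hj ((Module.forall_dual_apply_eq_zero_iff (ZMod p) _).1 hno)
  refine ⟨φ, fun h => hφ ?_⟩
  rw [← hcoord, h]
  simp

end Push

/-! ### left- versus right-separating forms in finite dimension -/

theorem s41as_sepRight_of_sepLeft {K : Type*} [Field K] {V : Type*} [AddCommGroup V] [Module K V]
    [FiniteDimensional K V] (B : V →ₗ[K] V →ₗ[K] K) (h : ∀ v, (∀ w, B v w = 0) → v = 0) :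
    ∀ v, (∀ w, B w v = 0) → v = 0 := by
  have hinj : Function.Injective B := by
    rw [← LinearMap.ker_eq_bot, LinearMap.ker_eq_bot']
    intro v hv
    exact h v fun w => by rw [hv]; rfl
  have hsurj : Function.Surjective B :=
    (LinearMap.injective_iff_surjective_of_finrank_eq_finrank
      (Subspace.dual_finrank_eq (K := K) (V := V)).symm).1 hinj
  intro v hv
  refine (Module.forall_dual_apply_eq_zero_iff K v).1 fun φ => ?_
  obtain ⟨w, rfl⟩ := hsurj φ
  exact hv w

/-! ### the bridge -/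

section Bridge

variable {p : ℕ} [Fact p.Prime] {FF : Type*} [Field FF] [CharP FF p] [Algebra (ZMod p) FF]

omit [CharP FF p] in
/-- an `F_p`-rational linear condition on `w ∈ FF ⊗ V` passes to every push of `w`. -/
theorem s41asPush_eigen (φ : FF →ₗ[ZMod p] ZMod p) {V : Type*} [AddCommGroup V]
    (T : V →ₗ[ℤ] V) (n : ℤ) (w : FF ⊗[ℤ] V) (hw : T.baseChange FF w = (n : FF) • w) :
    T.baseChange (ZMod p) (s41asPush p φ V w) = (n : ZMod p) • s41asPush p φ V w := by
  rw [← s41asPush_baseChange, hw, ← s41asPush_smul, map_intCast]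

omit [CharP FF p] in
/-- every nonzero element of `FF ⊗ V` has a nonzero push of the form `1 ⊗ x`, `x ∉ pV`. -/
theorem s41as_exists_push {V : Type*} [AddCommGroup V] [Module.Free ℤ V] (w : FF ⊗[ℤ] V)
    (hw : w ≠ 0) : ∃ (φ : FF →ₗ[ZMod p] ZMod p) (x : V),
      s41asPush p φ V w = (1 : ZMod p) ⊗ₜ[ℤ] x ∧ ¬ ∃ z, x = (p : ℤ) • z := by
  obtain ⟨φ, hφ⟩ := s41as_exists_push_ne_zero (p := p) w hw
  obtain ⟨x, hx⟩ := s41as_exists_one_tmul p (s41asPush p φ V w)
  refine ⟨φ, x, hx.symm, fun hz => hφ ?_⟩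
  rw [← hx]
  exact (s41as_one_tmul_eq_zero_iff p (ZMod p) x).2 hz

end Bridge

end Fermat.Agent.S41
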