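import Mathlib
import Fermat.Agent.S41.ASM.Push

/-!
# S41, package ASM : the level-raising lemma in lattice form (file tag `s41as_`)

* `s41as_lattice_lift_abstract` : hypotheses in the language of lattices mod `p`, conclusion a
  characteristic `0` eigenvector in `ker (β ⊗ Ω)` with eigenvalues reducing to `n i`;
* `s41as_lattice_abstract` : conclusion an element of the LATTICE `ker β`, not in `pY`, which is an
  eigenvector mod `p`.
-/

set_option autoImplicit false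

namespace Fermat.Agent.S41

open Module Polynomial TensorProduct

section Bridge

variable {p : ℕ} [Fact p.Prime] {FF : Type*} [Field FF] [CharP FF p] [Algebra (ZMod p) FF]

/-- evaluation of the base-changed form against `1 ⊗ y'`. -/
theorem s41as_baseChange_form_right {Y : Type*} [AddCommGroup Y] (BY : Y →ₗ[ℤ] Y →ₗ[ℤ] ℤ)
    (K : Type*) [Field K] (y' : Y) (w : K ⊗[ℤ] Y) :
    LinearMap.BilinForm.baseChange K BY w ((1 : K) ⊗ₜ[ℤ] y') =
      TensorProduct.rid ℤ K ((BY.flip y').baseChange K w) := by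
  induction w using TensorProduct.induction_on with
  | zero => simp
  | tmul a y₁ =>
    rw [LinearMap.BilinForm.baseChange_tmul, LinearMap.baseChange_tmul, TensorProduct.rid_tmul,
      mul_one, LinearMap.flip_apply]
  | add w₁ w₂ h₁ h₂ => simp only [map_add, LinearMap.add_apply, h₁, h₂]

omit [CharP FF p] in
/-- left-nondegeneracy mod `p` gives a left-separating form over `FF`. -/
theorem s41as_sepLeft_baseChange {Y : Type*} [AddCommGroup Y] [Module.Free ℤ Y]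
    (BY : Y →ₗ[ℤ] Y →ₗ[ℤ] ℤ)
    (hBY : ∀ y, (∀ y', (p : ℤ) ∣ BY y y') → ∃ z, y = (p : ℤ) • z) :
    ∀ w : FF ⊗[ℤ] Y, (∀ w', LinearMap.BilinForm.baseChange FF BY w w' = 0) → w = 0 := by
  intro w hw
  by_contra hw0
  obtain ⟨φ, y, hφ, hy⟩ := s41as_exists_push (p := p) w hw0
  apply hy
  refine hBY y fun y' => ?_
  have h1 := hw ((1 : FF) ⊗ₜ[ℤ] y')
  rw [s41as_baseChange_form_right, LinearEquiv.map_eq_zero_iff] at h1
  have h2 := congrArg (s41asPush p φ ℤ) h1
  rw [s41asPush_baseChange, hφ, map_zero, LinearMap.baseChange_tmul] at h2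
  obtain ⟨z, hz⟩ := (s41as_one_tmul_eq_zero_iff p (ZMod p) (BY.flip y' y)).1 h2
  exact ⟨z, by rw [LinearMap.flip_apply] at hz; rw [hz, smul_eq_mul]⟩

/-- bilinear extension: an identity between `ℤ`-bilinear expressions passes to the base change. -/
theorem s41as_baseChange_form_adj {X Y : Type*} [AddCommGroup X] [AddCommGroup Y]
    (BX : X →ₗ[ℤ] X →ₗ[ℤ] ℤ) (BY : Y →ₗ[ℤ] Y →ₗ[ℤ] ℤ) (K : Type*) [Field K]
    (α : X →ₗ[ℤ] Y) (β : Y →ₗ[ℤ] X) (hadj : ∀ x y, BY (α x) y = BX x (β y))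
    (w : K ⊗[ℤ] X) (w' : K ⊗[ℤ] Y) :
    LinearMap.BilinForm.baseChange K BY (α.baseChange K w) w' =
      LinearMap.BilinForm.baseChange K BX w (β.baseChange K w') := by
  induction w using TensorProduct.induction_on with
  | zero => simp
  | tmul a x =>
    induction w' using TensorProduct.induction_on with
    | zero => simp
    | tmul b y =>
      simp only [LinearMap.baseChange_tmul, LinearMap.BilinForm.baseChange_tmul, hadj]
    | add w₁ w₂ h₁ h₂ => simp only [map_add, h₁, h₂]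
  | add w₁ w₂ h₁ h₂ => simp only [map_add, LinearMap.add_apply, h₁, h₂]

/-- **The level-raising lemma, lattice hypotheses, characteristic `0` conclusion.** -/
theorem s41as_lattice_lift_abstract {R Ω : Type*} [CommRing R] [Field Ω] [IsAlgClosed FF]
    [IsAlgClosed Ω] (res : R →+* FF) (hres : Function.Surjective res) (emb : R →+* Ω)
    (hemb : Function.Injective emb)
    (hint : ∀ (P : R[X]) (z : Ω), P.Monic → (P.map emb).IsRoot z → z ∈ emb.range)
    {ι : Type*} {X Y : Type*} [AddCommGroup X] [Module.Free ℤ X] [Module.Finite ℤ X]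
    [AddCommGroup Y] [Module.Free ℤ Y] [Module.Finite ℤ Y]
    (TX : ι → X →ₗ[ℤ] X) (TY : ι → Y →ₗ[ℤ] Y)
    (hcX : ∀ i j, Commute (TX i) (TX j)) (hcY : ∀ i j, Commute (TY i) (TY j))
    (α : X →ₗ[ℤ] Y) (β : Y →ₗ[ℤ] X) (hα : ∀ i x, α (TX i x) = TY i (α x))
    (hβ : ∀ i y, β (TY i y) = TX i (β y))
    (BX : X →ₗ[ℤ] X →ₗ[ℤ] ℤ) (BY : Y →ₗ[ℤ] Y →ₗ[ℤ] ℤ)
    (hBY : ∀ y, (∀ y', (p : ℤ) ∣ BY y y') → ∃ z, y = (p : ℤ) • z)
    (hTYadj : ∀ i y y', BY (TY i y) y' = BY y (TY i y'))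
    (hadj : ∀ x y, BY (α x) y = BX x (β y)) (n : ι → ℤ)
    (hi : ∀ x, (∃ z, α x = (p : ℤ) • z) → (∀ i, ∃ z, TX i x - n i • x = (p : ℤ) • z) →
      ∃ z, x = (p : ℤ) • z)
    (hii : ∃ x, (¬ ∃ z, x = (p : ℤ) • z) ∧ (∀ i, ∃ z, TX i x - n i • x = (p : ℤ) • z) ∧
      ∃ z, β (α x) = (p : ℤ) • z) :
    ∃ (lam : ι → R) (v : Ω ⊗[ℤ] Y), v ≠ 0 ∧ β.baseChange Ω v = 0 ∧
      (∀ i, (TY i).baseChange Ω v = emb (lam i) • v) ∧ ∀ i, res (lam i) = (n i : FF) := by
  have hp0 : ∀ {V : Type _} [AddCommGroup V] (z : V), (1 : FF) ⊗ₜ[ℤ] ((p : ℤ) • z) = 0 := by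
    intro V _ z
    rw [TensorProduct.tmul_smul, TensorProduct.smul_tmul']
    have : ((p : ℤ) • (1 : FF)) = 0 := by
      rw [zsmul_eq_mul, mul_one, Int.cast_natCast, CharP.cast_eq_zero]
    rw [this, TensorProduct.zero_tmul]
  refine s41as_main res hres emb hemb hint TX TY hcX hcY α β hα hβ (fun i => (n i : FF))
    (LinearMap.BilinForm.baseChange FF BX) (LinearMap.BilinForm.baseChange FF BY)
    (s41as_sepRight_of_sepLeft _ (s41as_sepLeft_baseChange (p := p) BY hBY)) ?_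
    (s41as_baseChange_form_adj BX BY FF α β hadj) ?_ ?_
  · -- self-adjointness
    intro i w w'
    exact s41as_baseChange_form_adj BY BY FF (TY i) (TY i) (hTYadj i) w w'
  · -- (IHARA)
    intro w hw0 hαw hTw
    obtain ⟨φ, x, hφ, hx⟩ := s41as_exists_push (p := p) w hw0
    apply hx
    refine hi x ?_ fun i => ?_
    · have h1 := congrArg (s41asPush p φ Y) hαw
      rw [s41asPush_baseChange, hφ, map_zero, LinearMap.baseChange_tmul] at h1
      exact (s41as_one_tmul_eq_zero_iff p (ZMod p) (α x)).1 h1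
    · have h1 := s41asPush_eigen φ (TX i) (n i) w (hTw i)
      rw [hφ, LinearMap.baseChange_tmul] at h1
      refine (s41as_one_tmul_eq_zero_iff p (ZMod p) _).1 ?_
      rw [TensorProduct.tmul_sub, h1, TensorProduct.tmul_smul, sub_eq_zero,
        TensorProduct.smul_tmul', TensorProduct.smul_tmul', zsmul_eq_mul, mul_one, smul_eq_mul,
        mul_one]
  · -- (SING)
    obtain ⟨x, hx, hTx, z, hz⟩ := hii
    refine ⟨(1 : FF) ⊗ₜ[ℤ] x, fun h => hx ((s41as_one_tmul_eq_zero_iff p FF x).1 h),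
      fun i => ?_, ?_⟩
    · obtain ⟨z, hz⟩ := hTx i
      rw [LinearMap.baseChange_tmul, (sub_eq_iff_eq_add.1 hz : TX i x = (p : ℤ) • z + n i • x),
        TensorProduct.tmul_add, hp0, zero_add, TensorProduct.tmul_smul,
        TensorProduct.smul_tmul', TensorProduct.smul_tmul', zsmul_eq_mul, mul_one, smul_eq_mul,
        mul_one]
    · rw [LinearMap.baseChange_tmul, LinearMap.baseChange_tmul, hz, hp0]

/-- **The level-raising lemma, lattice hypotheses, lattice conclusion.** -/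
theorem s41as_lattice_abstract {R Ω : Type*} [CommRing R] [Field Ω] [IsAlgClosed FF]
    [IsAlgClosed Ω] [Module.Flat ℤ Ω] (res : R →+* FF) (hres : Function.Surjective res)
    (emb : R →+* Ω) (hemb : Function.Injective emb)
    (hint : ∀ (P : R[X]) (z : Ω), P.Monic → (P.map emb).IsRoot z → z ∈ emb.range)
    {ι : Type*} {X Y : Type*} [AddCommGroup X] [Module.Free ℤ X] [Module.Finite ℤ X]
    [AddCommGroup Y] [Module.Free ℤ Y] [Module.Finite ℤ Y]
    (TX : ι → X →ₗ[ℤ] X) (TY : ι → Y →ₗ[ℤ] Y)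
    (hcX : ∀ i j, Commute (TX i) (TX j)) (hcY : ∀ i j, Commute (TY i) (TY j))
    (α : X →ₗ[ℤ] Y) (β : Y →ₗ[ℤ] X) (hα : ∀ i x, α (TX i x) = TY i (α x))
    (hβ : ∀ i y, β (TY i y) = TX i (β y))
    (BX : X →ₗ[ℤ] X →ₗ[ℤ] ℤ) (BY : Y →ₗ[ℤ] Y →ₗ[ℤ] ℤ)
    (hBY : ∀ y, (∀ y', (p : ℤ) ∣ BY y y') → ∃ z, y = (p : ℤ) • z)
    (hTYadj : ∀ i y y', BY (TY i y) y' = BY y (TY i y'))
    (hadj : ∀ x y, BY (α x) y = BX x (β y)) (n : ι → ℤ)
    (hi : ∀ x, (∃ z, α x = (p : ℤ) • z) → (∀ i, ∃ z, TX i x - n i • x = (p : ℤ) • z) →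
      ∃ z, x = (p : ℤ) • z)
    (hii : ∃ x, (¬ ∃ z, x = (p : ℤ) • z) ∧ (∀ i, ∃ z, TX i x - n i • x = (p : ℤ) • z) ∧
      ∃ z, β (α x) = (p : ℤ) • z) :
    ∃ y, β y = 0 ∧ (¬ ∃ z, y = (p : ℤ) • z) ∧ ∀ i, ∃ z, TY i y - n i • y = (p : ℤ) • z := by
  obtain ⟨lam, v, hv0, hβv, hTv, hlam⟩ := s41as_lattice_lift_abstract (p := p) res hres emb hemb
    hint TX TY hcX hcY α β hα hβ BX BY hBY hTYadj hadj n hi hii
  -- the lattice `K = ker β`
  set K : Submodule ℤ Y := LinearMap.ker β with hK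
  have hKst : ∀ i, ∀ y ∈ K, TY i y ∈ K := by
    intro i y hy
    rw [hK, LinearMap.mem_ker] at hy ⊢
    rw [hβ, hy, map_zero]
  set TK : ι → K →ₗ[ℤ] K := fun i => (TY i).restrict (hKst i) with hTK
  have hcK : ∀ i j, Commute (TK i) (TK j) := fun i j =>
    LinearMap.restrict_commute (hcY i j) (hKst i) (hKst j)
  -- `v` comes from `Ω ⊗ K` (flatness)
  have hinjK : Function.Injective (K.subtype.baseChange Ω) :=
    Module.Flat.lTensor_preserves_injective_linearMap (M := Ω) K.subtype K.injective_subtype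
  have hvmem : v ∈ LinearMap.range (K.subtype.baseChange Ω) := by
    have h1 : v ∈ LinearMap.ker (TensorProduct.AlgebraTensorModule.lTensor Ω Ω β) :=
      LinearMap.mem_ker.2 hβv
    rw [Module.Flat.ker_lTensor_eq] at h1
    exact h1
  obtain ⟨v', rfl⟩ := hvmem
  have hv'0 : v' ≠ 0 := fun h => hv0 (by rw [h, map_zero])
  have hTv' : ∀ i, (TK i).baseChange Ω v' = emb (lam i) • v' := by
    intro i
    apply hinjK
    rw [map_smul, ← hTv i]
    have h : K.subtype ∘ₗ TK i = TY i ∘ₗ K.subtype := LinearMap.ext fun y => rfl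
    have := congrArg (fun g : K →ₗ[ℤ] Y => g.baseChange Ω) h
    simp only [LinearMap.baseChange_comp] at this
    exact congrArg (fun g : Ω ⊗[ℤ] K →ₗ[Ω] Ω ⊗[ℤ] Y => g v') this
  -- reduce mod `𝔪`
  obtain ⟨w, hw0, hTw⟩ := s41as_reduce_abstract res hres emb hemb hint TK hcK lam v' hv'0 hTv'
  obtain ⟨φ, y, hφ, hy⟩ := s41as_exists_push (p := p) w hw0
  refine ⟨(y : Y), LinearMap.mem_ker.1 y.2, ?_, fun i => ?_⟩
  · rintro ⟨z, hz⟩
    apply hy
    have hzK : z ∈ K := by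
      rw [hK, LinearMap.mem_ker]
      have h1 : β ((p : ℤ) • z) = 0 := by rw [← hz]; exact LinearMap.mem_ker.1 y.2
      rw [map_smul] at h1
      rcases smul_eq_zero.1 h1 with h | h
      · exact absurd h (by exact_mod_cast (Fact.out : p.Prime).ne_zero)
      · exact h
    exact ⟨⟨z, hzK⟩, Subtype.ext hz⟩
  · have h1 := s41asPush_eigen φ (TK i) (n i) w (by rw [hTw i, hlam i])
    rw [hφ, LinearMap.baseChange_tmul] at h1
    have h2 : (1 : ZMod p) ⊗ₜ[ℤ] (TK i y - n i • y) = 0 := by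
      rw [TensorProduct.tmul_sub, h1, TensorProduct.tmul_smul, sub_eq_zero,
        TensorProduct.smul_tmul', TensorProduct.smul_tmul', zsmul_eq_mul, mul_one, smul_eq_mul,
        mul_one]
    obtain ⟨z, hz⟩ := (s41as_one_tmul_eq_zero_iff p (ZMod p) _).1 h2
    refine ⟨(z : Y), ?_⟩
    have h3 := congrArg Subtype.val hz
    simpa [hTK] using h3

end Bridge

end Fermat.Agent.S41
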