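import Mathlib
import Fermat.Agent.S41.ASM.LatticeAbs

/-!
# S41, package ASM : `s41as_lattice` (row 590, ASM-L) and `s41as_lattice_lift`

The level-raising lattice lemma of `Fermat/Agent/S41/Spec.lean` (helper24), VERBATIM, and its
strengthening with a characteristic `0` conclusion (which makes ASM-U unnecessary).
-/

set_option autoImplicit false

noncomputable section

namespace Fermat.Agent.S41

open Module Polynomial TensorProduct

/-- there is a maximal ideal of `ℤ̄` over `p`. -/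
theorem s41as_exists_maximal (p : ℕ) (hp : p.Prime) :
    ∃ 𝔪 : Ideal (integralClosure ℤ ℂ), 𝔪.IsMaximal ∧ (p : integralClosure ℤ ℂ) ∈ 𝔪 := by
  have hne : Ideal.span {(p : integralClosure ℤ ℂ)} ≠ ⊤ := by
    intro h
    rw [Ideal.span_singleton_eq_top] at h
    obtain ⟨u, hu⟩ := h.exists_right_inv
    -- `1/p` would be an algebraic integer
    have h1 : ((p : ℂ)) * (u : ℂ) = 1 := by
      have := congrArg (fun x : integralClosure ℤ ℂ => (x : ℂ)) hu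
      simpa using this
    have hp0 : (p : ℂ) ≠ 0 := by exact_mod_cast hp.ne_zero
    have h2 : (u : ℂ) = algebraMap ℚ ℂ (1 / (p : ℚ)) := by
      rw [map_div₀, map_one, map_natCast]
      field_simp
      rw [mul_comm]; exact h1
    have h3 : IsIntegral ℤ (1 / (p : ℚ)) := by
      have : IsIntegral ℤ (algebraMap ℚ ℂ (1 / (p : ℚ))) := h2 ▸ u.2
      exact (isIntegral_algebraMap_iff (algebraMap ℚ ℂ).injective).1 this
    obtain ⟨m, hm⟩ := IsIntegrallyClosed.isIntegral_iff.1 h3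
    have h4 : (p : ℚ) * (m : ℚ) = 1 := by
      have hp0' : (p : ℚ) ≠ 0 := by exact_mod_cast hp.ne_zero
      rw [show ((m : ℚ)) = algebraMap ℤ ℚ m from rfl, hm, mul_one_div, div_self hp0']
    have h5 : (p : ℤ) * m = 1 := by exact_mod_cast h4
    have h6 : (p : ℤ) ∣ 1 := ⟨m, h5.symm⟩
    have h7 := Int.natAbs_dvd_natAbs.2 h6
    simp only [Int.natAbs_natCast, Int.natAbs_one, Nat.dvd_one] at h7
    exact hp.one_lt.ne' h7
  obtain ⟨𝔪, h𝔪, hle⟩ := Ideal.exists_le_maximal _ hne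
  exact ⟨𝔪, h𝔪, hle (Ideal.subset_span rfl)⟩

section Zbar

attribute [local instance] Ideal.Quotient.field

theorem s41as_charP (𝔪 : Ideal (integralClosure ℤ ℂ)) [𝔪.IsMaximal] {p : ℕ} (hp : p.Prime)
    (hp𝔪 : (p : integralClosure ℤ ℂ) ∈ 𝔪) : CharP (integralClosure ℤ ℂ ⧸ 𝔪) p := by
  obtain ⟨r, hr⟩ := CharP.exists (integralClosure ℤ ℂ ⧸ 𝔪)
  have h0 : ((p : ℕ) : integralClosure ℤ ℂ ⧸ 𝔪) = 0 := by
    rw [← map_natCast (Ideal.Quotient.mk 𝔪)]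
    exact Ideal.Quotient.eq_zero_iff_mem.2 hp𝔪
  have hdvd : r ∣ p := (CharP.cast_eq_zero_iff (integralClosure ℤ ℂ ⧸ 𝔪) r p).1 h0
  rcases (Nat.dvd_prime hp).1 hdvd with h | h
  · exact absurd h (CharP.char_ne_one (integralClosure ℤ ℂ ⧸ 𝔪) r)
  · exact h ▸ hr

/-- a bi-additive map as a `ℤ`-bilinear map. -/
def s41asBil {X : Type*} [AddCommGroup X] (B : X →+ X →+ ℤ) : X →ₗ[ℤ] X →ₗ[ℤ] ℤ :=
  LinearMap.mk₂ ℤ (fun x x' => B x x') (fun x₁ x₂ x' => by simp) (fun c x x' => by simp)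
    (fun x x₁' x₂' => by simp) (fun c x x' => by simp)

@[simp]
theorem s41asBil_apply {X : Type*} [AddCommGroup X] (B : X →+ X →+ ℤ) (x x' : X) :
    s41asBil B x x' = B x x' := rfl

/-- **(ASM-L + ASM-U in one step).**  Hypotheses of `s41as_lattice`, plus a maximal ideal `𝔪` of
`ℤ̄` over `p`; conclusion : a nonzero `v ∈ ker (β ⊗ ℂ)`, eigenvector of all `TY i ⊗ ℂ` with
eigenvalues `lam i ∈ ℤ̄`, `lam i ≡ n i mod 𝔪`. -/
theorem s41as_lattice_lift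
    {X Y : Type*} [AddCommGroup X] [AddCommGroup Y]
    [Module.Free ℤ X] [Module.Finite ℤ X] [Module.Free ℤ Y] [Module.Finite ℤ Y]
    {ι : Type*} (TX : ι → X →+ X) (TY : ι → Y →+ Y)
    (hTX : ∀ i j x, TX i (TX j x) = TX j (TX i x))
    (hTY : ∀ i j y, TY i (TY j y) = TY j (TY i y))
    (α : X →+ Y) (β : Y →+ X)
    (hα : ∀ i x, α (TX i x) = TY i (α x)) (hβ : ∀ i y, β (TY i y) = TX i (β y))
    (BX : X →+ X →+ ℤ) (BY : Y →+ Y →+ ℤ) {p : ℕ} (hp : p.Prime)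
    (hBY : ∀ y, (∀ y', (p : ℤ) ∣ BY y y') → ∃ z, y = (p : ℤ) • z)
    (hTYadj : ∀ i y y', BY (TY i y) y' = BY y (TY i y'))
    (hadj : ∀ x y, BY (α x) y = BX x (β y))
    (n : ι → ℤ)
    (hi : ∀ x, (∃ z, α x = (p : ℤ) • z) → (∀ i, ∃ z, TX i x - n i • x = (p : ℤ) • z) →
      ∃ z, x = (p : ℤ) • z)
    (hii : ∃ x, (¬ ∃ z, x = (p : ℤ) • z) ∧ (∀ i, ∃ z, TX i x - n i • x = (p : ℤ) • z) ∧
      ∃ z, β (α x) = (p : ℤ) • z)
    (𝔪 : Ideal (integralClosure ℤ ℂ)) (hmax : 𝔪.IsMaximal)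
    (hp𝔪 : (p : integralClosure ℤ ℂ) ∈ 𝔪) :
    ∃ (lam : ι → integralClosure ℤ ℂ) (v : ℂ ⊗[ℤ] Y), v ≠ 0 ∧
      β.toIntLinearMap.baseChange ℂ v = 0 ∧
      (∀ i, (TY i).toIntLinearMap.baseChange ℂ v = (lam i : ℂ) • v) ∧
      ∀ i, lam i - (n i : integralClosure ℤ ℂ) ∈ 𝔪 := by
  have := hmax
  have : Fact p.Prime := ⟨hp⟩
  have := s41as_charP 𝔪 hp hp𝔪
  let _ : Algebra (ZMod p) (integralClosure ℤ ℂ ⧸ 𝔪) := ZMod.algebra _ p
  have := s41as_isAlgClosed_quotient 𝔪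
  obtain ⟨lam, v, hv0, hβv, hTv, hlam⟩ := s41as_lattice_lift_abstract (p := p)
    (FF := integralClosure ℤ ℂ ⧸ 𝔪) (Ideal.Quotient.mk 𝔪) Ideal.Quotient.mk_surjective
    (algebraMap (integralClosure ℤ ℂ) ℂ) (FaithfulSMul.algebraMap_injective _ _) s41as_hint
    (fun i => (TX i).toIntLinearMap) (fun i => (TY i).toIntLinearMap)
    (fun i j => LinearMap.ext fun x => hTX i j x) (fun i j => LinearMap.ext fun y => hTY i j y)
    α.toIntLinearMap β.toIntLinearMap hα hβ (s41asBil BX) (s41asBil BY) hBY hTYadj hadj n hi hii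
  refine ⟨lam, v, hv0, hβv, hTv, fun i => ?_⟩
  rw [← Ideal.Quotient.eq_zero_iff_mem, map_sub, hlam i, map_intCast, sub_self]

end Zbar

set_option linter.unusedVariables false in
/-- **(ASM-L)** the level-raising lattice lemma, VERBATIM from `Fermat/Agent/S41/Spec.lean`. -/
theorem s41as_lattice
    {X Y : Type*} [AddCommGroup X] [AddCommGroup Y]
    [Module.Free ℤ X] [Module.Finite ℤ X] [Module.Free ℤ Y] [Module.Finite ℤ Y]
    {ι : Type*} (TX : ι → X →+ X) (TY : ι → Y →+ Y)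
    (hTX : ∀ i j x, TX i (TX j x) = TX j (TX i x))
    (hTY : ∀ i j y, TY i (TY j y) = TY j (TY i y))
    (α : X →+ Y) (β : Y →+ X)
    (hα : ∀ i x, α (TX i x) = TY i (α x)) (hβ : ∀ i y, β (TY i y) = TX i (β y))
    (BX : X →+ X →+ ℤ) (BY : Y →+ Y →+ ℤ) {p : ℕ} (hp : p.Prime)
    (hBX : ∀ x, (∀ x', (p : ℤ) ∣ BX x x') → ∃ z, x = (p : ℤ) • z)
    (hBY : ∀ y, (∀ y', (p : ℤ) ∣ BY y y') → ∃ z, y = (p : ℤ) • z)
    (hTXadj : ∀ i x x', BX (TX i x) x' = BX x (TX i x'))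
    (hTYadj : ∀ i y y', BY (TY i y) y' = BY y (TY i y'))
    (hadj : ∀ x y, BY (α x) y = BX x (β y))
    (n : ι → ℤ)
    (hi : ∀ x, (∃ z, α x = (p : ℤ) • z) → (∀ i, ∃ z, TX i x - n i • x = (p : ℤ) • z) →
      ∃ z, x = (p : ℤ) • z)
    (hii : ∃ x, (¬ ∃ z, x = (p : ℤ) • z) ∧ (∀ i, ∃ z, TX i x - n i • x = (p : ℤ) • z) ∧
      ∃ z, β (α x) = (p : ℤ) • z) :
    ∃ y, β y = 0 ∧ (¬ ∃ z, y = (p : ℤ) • z) ∧ ∀ i, ∃ z, TY i y - n i • y = (p : ℤ) • z := by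
  obtain ⟨𝔪, hmax, hp𝔪⟩ := s41as_exists_maximal p hp
  have := hmax
  have : Fact p.Prime := ⟨hp⟩
  let _ : Field (integralClosure ℤ ℂ ⧸ 𝔪) := Ideal.Quotient.field 𝔪
  have := s41as_charP 𝔪 hp hp𝔪
  let _ : Algebra (ZMod p) (integralClosure ℤ ℂ ⧸ 𝔪) := ZMod.algebra _ p
  have := s41as_isAlgClosed_quotient 𝔪
  exact s41as_lattice_abstract (p := p)
    (FF := integralClosure ℤ ℂ ⧸ 𝔪) (Ideal.Quotient.mk 𝔪) Ideal.Quotient.mk_surjective
    (algebraMap (integralClosure ℤ ℂ) ℂ) (FaithfulSMul.algebraMap_injective _ _) s41as_hint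
    (fun i => (TX i).toIntLinearMap) (fun i => (TY i).toIntLinearMap)
    (fun i j => LinearMap.ext fun x => hTX i j x) (fun i j => LinearMap.ext fun y => hTY i j y)
    α.toIntLinearMap β.toIntLinearMap hα hβ (s41asBil BX) (s41asBil BY) hBY hTYadj hadj n hi hii

end Fermat.Agent.S41
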